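/-
helper4 — S18 / Program J, leaf C1-D2 (Gauss count on `K(x)`), part A: the place side.

Setting of the S18 skeleton (`Setup`): `A` a valuation subring of the algebraically closed field
`K`, `F/K` a field, `O` a valuation subring of `F`, `x : F`, with
* `hmem   : ∀ a, algebraMap K F a ∈ O ↔ a ∈ A`                      (`Setup.mem_iff`)
* `hgauss : Gauss-norm-one polynomials in `x` are units of `O`        (`Setup.gauss`)
* `hfib   : every `c` of the residue disc of `b` has a place of `F` above it`.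

Results: Gauss normalisation of polynomials; orders of `p(x)` at places over `x = c`; the
DISC NORMAL FORM of a Gauss unit `r ∈ K(x)` without poles on the residue disc of `b`:
`r = p(x)/q(x)` with `p, q` of Gauss norm one and `q` without zeros in the disc; the number
`discZeros A b p` of zeros in the disc is the order of the reduction (`DiscRoots`), and
`r = ε * ∏ (x - cᵢ)` with `ε` a unit on the disc.
-/
import Mathlib
import Fermat.Agent.S24.Ord
import Fermat.Agent.S18.H4.DiscRoots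

set_option autoImplicit false

open Polynomial AlgebraicCurve IntermediateField

namespace Fermat.Agent.S18.H4

variable {K : Type*} [Field K] (A : ValuationSubring K)

/-- Gauss norm one: coefficients in `A`, one of them a unit of `A`. -/
def IsGaussPrim (p : K[X]) : Prop :=
  (∀ i, p.coeff i ∈ A) ∧ ∃ i, p.coeff i ≠ 0 ∧ (p.coeff i)⁻¹ ∈ A

open Classical in
/-- The number of roots (with multiplicity) of `p` in the residue disc `b + 𝔪_A`. -/
noncomputable def discZeros (b : K) (p : K[X]) : ℕ :=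
  p.roots.countP (fun c => c - b ∈ A.nonunits)

variable {A}

lemma IsGaussPrim.ne_zero {p : K[X]} (hp : IsGaussPrim A p) : p ≠ 0 := by
  obtain ⟨-, i, hi, -⟩ := hp
  intro h
  exact hi (by rw [h, coeff_zero])

/-- Multiplying by a unit of `A` preserves Gauss norm one. -/
lemma IsGaussPrim.C_mul {p : K[X]} (hp : IsGaussPrim A p) {a : K} (ha0 : a ≠ 0) (ha : a ∈ A)
    (ha' : a⁻¹ ∈ A) : IsGaussPrim A (C a * p) := by
  obtain ⟨h1, i, hi, hi'⟩ := hp
  refine ⟨fun j => ?_, i, ?_, ?_⟩
  · rw [coeff_C_mul]; exact A.mul_mem _ _ ha (h1 j)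
  · rw [coeff_C_mul]; exact mul_ne_zero ha0 hi
  · rw [coeff_C_mul, mul_inv]; exact A.mul_mem _ _ ha' hi'

lemma isGaussPrim_X_sub_C {c : K} (hc : c ∈ A) : IsGaussPrim A (X - C c) := by
  refine ⟨fun i => ?_, 1, ?_, ?_⟩
  · rw [coeff_sub]
    refine sub_mem ?_ ?_
    · rw [coeff_X]; split_ifs
      · exact A.one_mem
      · exact A.zero_mem
    · rw [coeff_C]; split_ifs
      · exact hc
      · exact A.zero_mem
  · simp [coeff_sub, coeff_X]
  · simp [coeff_sub, coeff_X, A.one_mem]

variable (A) in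
/-- **Gauss normalisation**: a nonzero polynomial is a nonzero constant times a polynomial of
Gauss norm one. -/
lemma exists_isGaussPrim {p : K[X]} (hp : p ≠ 0) :
    ∃ (a : K) (p' : K[X]), a ≠ 0 ∧ IsGaussPrim A p' ∧ p = C a * p' := by
  have hne : p.support.Nonempty := nonempty_support_iff.mpr hp
  obtain ⟨i₀, hi₀, hmax⟩ := Finset.exists_max_image p.support
    (fun i => A.valuation (p.coeff i)) hne
  have ha0 : p.coeff i₀ ≠ 0 := mem_support_iff.mp hi₀
  refine ⟨p.coeff i₀, C (p.coeff i₀)⁻¹ * p, ha0, ⟨fun i => ?_, i₀, ?_, ?_⟩, ?_⟩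
  · rw [coeff_C_mul, ← A.valuation_le_one_iff, map_mul, map_inv₀]
    by_cases hi : i ∈ p.support
    · have h1 := hmax i hi
      have h2 : A.valuation (p.coeff i₀) ≠ 0 := (Valuation.ne_zero_iff _).mpr ha0
      rw [inv_mul_le_one₀ (zero_lt_iff.mpr h2)]
      exact h1
    · rw [notMem_support_iff.mp hi, map_zero, mul_zero]
      exact zero_le_one
  · rw [coeff_C_mul, inv_mul_cancel₀ ha0]; exact one_ne_zero
  · rw [coeff_C_mul, inv_mul_cancel₀ ha0, inv_one]; exact A.one_mem
  · rw [← mul_assoc, ← C_mul, mul_inv_cancel₀ ha0, C_1, one_mul]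

section Place

variable {F : Type*} [Field F] [Algebra K F] (x : F)

/-- **Orders of polynomials in `x` at a place over `x = c`**. -/
theorem ord_aeval_of_ord_sub_pos (P : Place K F) (c : K)
    (hP : 0 < P.ord (x - algebraMap K F c)) {p : K[X]} (hp : p ≠ 0) :
    aeval x p ≠ 0 ∧
      P.ord (aeval x p) = (p.rootMultiplicity c : ℤ) * P.ord (x - algebraMap K F c) := by
  have hπ0 : x - algebraMap K F c ≠ 0 := by
    intro h
    rw [h, Place.ord_zero] at hP
    exact lt_irrefl _ hP
  have hK : ∀ a : K, algebraMap K F a ≠ 0 → P.ord (algebraMap K F a) = 0 := by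
    intro a ha
    exact Fermat.Agent.S24.ord_algebraMap P (by rintro rfl; exact ha (map_zero _))
  have hcomp : p.comp (X + C c) ≠ 0 := by
    intro h
    apply hp
    have := congrArg (fun q : K[X] => q.comp (X - C c)) h
    simpa [comp_assoc] using this
  have key := (Fermat.Agent.S24.H52.isAddVal_ord P).map_aeval hK hP hπ0 hcomp
  have haev : aeval (x - algebraMap K F c) (p.comp (X + C c)) = aeval x p := by
    rw [aeval_comp]
    simp
  rw [haev, ← rootMultiplicity_eq_rootMultiplicity] at key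
  exact key

/-- A polynomial in `x` that does not vanish at `c` has order `0` at the places over `x = c`. -/
theorem ord_aeval_eq_zero (P : Place K F) (c : K)
    (hP : 0 < P.ord (x - algebraMap K F c)) {p : K[X]} (hpc : p.eval c ≠ 0) :
    aeval x p ≠ 0 ∧ P.ord (aeval x p) = 0 := by
  have hp : p ≠ 0 := by rintro rfl; exact hpc (by simp)
  obtain ⟨h1, h2⟩ := ord_aeval_of_ord_sub_pos x P c hP hp
  refine ⟨h1, ?_⟩
  rw [h2, rootMultiplicity_eq_zero (by simpa [IsRoot] using hpc)]
  simp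

/-- Polynomials in `x` are regular at the places where `x` is regular. -/
theorem ord_aeval_nonneg (P : Place K F) (hP : 0 ≤ P.ord x) (p : K[X]) :
    0 ≤ P.ord (aeval x p) := by
  by_cases h : aeval x p = 0
  · rw [h, Place.ord_zero]
  · have hK : ∀ a : K, algebraMap K F a ≠ 0 → P.ord (algebraMap K F a) = 0 := by
      intro a ha
      exact Fermat.Agent.S24.ord_algebraMap P (by rintro rfl; exact ha (map_zero _))
    exact (Fermat.Agent.S24.H52.isAddVal_ord P).map_aeval_nonneg hK hP p h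

/-- At a place over `x = c` the function `x` is regular. -/
theorem ord_nonneg_of_ord_sub_pos (P : Place K F) (c : K)
    (hP : 0 < P.ord (x - algebraMap K F c)) : 0 ≤ P.ord x := by
  have h := (ord_aeval_of_ord_sub_pos x P c hP (p := X) X_ne_zero).2
  rw [aeval_X] at h
  rw [h]
  positivity

end Place

section DiscZeros

variable (A)

open Classical in
lemma discZeros_mul (b : K) {p q : K[X]} (hpq : p * q ≠ 0) :
    discZeros A b (p * q) = discZeros A b p + discZeros A b q := by
  unfold discZeros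
  rw [roots_mul hpq, Multiset.countP_add]

open Classical in
lemma discZeros_C_mul (b : K) {a : K} (ha : a ≠ 0) (p : K[X]) :
    discZeros A b (C a * p) = discZeros A b p := by
  unfold discZeros
  rw [roots_C_mul p ha]

open Classical in
lemma discZeros_X_sub_C (b c : K) :
    discZeros A b (X - C c) = if c - b ∈ A.nonunits then 1 else 0 := by
  unfold discZeros
  rw [roots_X_sub_C]
  by_cases h : c - b ∈ A.nonunits
  · rw [if_pos h, Multiset.countP_eq_card_filter, Multiset.filter_singleton, if_pos h,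
      Multiset.card_singleton]
  · rw [if_neg h, Multiset.countP_eq_card_filter, Multiset.filter_singleton, if_neg h]
    rfl

open Classical in
/-- `discZeros` as a sum of root multiplicities over the roots in the disc. -/
lemma discZeros_eq_sum (b : K) (p : K[X]) :
    discZeros A b p
      = ∑ c ∈ p.roots.toFinset.filter (fun c => c - b ∈ A.nonunits), p.rootMultiplicity c := by
  unfold discZeros
  rw [Multiset.countP_eq_card_filter, ← Multiset.toFinset_sum_count_eq]
  have h1 : (Multiset.filter (fun c => c - b ∈ A.nonunits) p.roots).toFinset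
      = p.roots.toFinset.filter (fun c => c - b ∈ A.nonunits) := by
    ext c
    simp
  rw [h1]
  refine Finset.sum_congr rfl fun c hc => ?_
  rw [Finset.mem_filter] at hc
  rw [Multiset.count_filter_of_pos (p := fun c => c - b ∈ A.nonunits) hc.2, count_roots]

open Classical in
lemma discZeros_eq_zero_iff (b : K) {p : K[X]} (hp : p ≠ 0) :
    discZeros A b p = 0 ↔ ∀ c : K, c - b ∈ A.nonunits → p.eval c ≠ 0 := by
  unfold discZeros
  rw [Multiset.countP_eq_zero]
  constructor
  · intro h c hc hpc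
    exact h c ((mem_roots hp).mpr hpc) hc
  · intro h c hc hcb
    exact h c hcb ((mem_roots hp).mp hc)

open Classical in
/-- **Gauss count** (`DiscRoots`): for `p` of Gauss norm one and `b ∈ A`, the number of zeros of
`p` in the residue disc of `b` is the order at `b̄` of the reduction of `p`. -/
theorem discZeros_eq_rootMultiplicity [IsAlgClosed K] {p : K[X]} (hp : IsGaussPrim A p) (b : A) :
    ∃ f : A[X], f.map (algebraMap A K) = p ∧ f.map (IsLocalRing.residue A) ≠ 0 ∧
      discZeros A (b : K) p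
        = (f.map (IsLocalRing.residue A)).rootMultiplicity (IsLocalRing.residue A b) :=
  countP_roots_sub_mem_nonunits A p hp.1 hp.2 b

end DiscZeros

section NormalForm

variable {F : Type*} [Field F] [Algebra K F] (O : ValuationSubring F) (x : F)

/-- `aeval x p ∈ K⟮x⟯`. -/
lemma aeval_mem_adjoin_simple (p : K[X]) : aeval x p ∈ K⟮x⟯ := by
  rw [mem_adjoin_simple_iff]
  exact ⟨p, 1, by simp⟩

variable {O x}

/-- **Disc normal form.** A Gauss unit `r ∈ K(x)` without poles on the residue disc of `b` is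
`p(x)/q(x)` with `p, q` coprime of Gauss norm one and `q` without zeros in the disc. -/
theorem exists_disc_normal_form
    (hmem : ∀ a : K, algebraMap K F a ∈ O ↔ a ∈ A)
    (hgauss : ∀ p : K[X], (∀ i, p.coeff i ∈ A) → (∃ i, p.coeff i ≠ 0 ∧ (p.coeff i)⁻¹ ∈ A) →
      aeval x p ∈ O ∧ (aeval x p)⁻¹ ∈ O)
    (b : K)
    (hfib : ∀ c : K, c - b ∈ A.nonunits → ∃ P : Place K F, 0 < P.ord (x - algebraMap K F c))
    {r : F} (hr : r ∈ K⟮x⟯) (hr0 : r ≠ 0) (hrO : r ∈ O) (hrO' : r⁻¹ ∈ O)
    (hpole : ∀ P : Place K F,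
      (∃ c : K, c - b ∈ A.nonunits ∧ 0 < P.ord (x - algebraMap K F c)) → 0 ≤ P.ord r) :
    ∃ p q : K[X], IsGaussPrim A p ∧ IsGaussPrim A q ∧ IsCoprime p q ∧
      (∀ c : K, c - b ∈ A.nonunits → q.eval c ≠ 0) ∧ r * aeval x q = aeval x p := by
  classical
  obtain ⟨p₀, q₀, h⟩ := (mem_adjoin_simple_iff K r).mp hr
  have hq₀x : aeval x q₀ ≠ 0 := by
    intro h0
    rw [h0, div_zero] at h
    exact hr0 h
  have hp₀x : aeval x p₀ ≠ 0 := by
    intro h0
    rw [h0, zero_div] at h
    exact hr0 h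
  have hq₀ : q₀ ≠ 0 := by rintro rfl; exact hq₀x (map_zero _)
  -- divide by the gcd
  set g := EuclideanDomain.gcd p₀ q₀ with hg
  obtain ⟨p₁, hp₁⟩ := EuclideanDomain.gcd_dvd_left p₀ q₀
  obtain ⟨q₁, hq₁⟩ := EuclideanDomain.gcd_dvd_right p₀ q₀
  rw [← hg] at hp₁ hq₁
  have hg0 : g ≠ 0 := by
    rintro h0
    rw [h0, zero_mul] at hq₁
    exact hq₀ hq₁
  have hcop₁ : IsCoprime p₁ q₁ := by
    refine ⟨EuclideanDomain.gcdA p₀ q₀, EuclideanDomain.gcdB p₀ q₀, ?_⟩
    have h1 := EuclideanDomain.gcd_eq_gcd_ab p₀ q₀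
    rw [← hg] at h1
    have h2 : g * (EuclideanDomain.gcdA p₀ q₀ * p₁ + EuclideanDomain.gcdB p₀ q₀ * q₁) = g * 1 := by
      linear_combination (-1 : K[X]) * h1 - EuclideanDomain.gcdA p₀ q₀ * hp₁
        - EuclideanDomain.gcdB p₀ q₀ * hq₁
    exact mul_left_cancel₀ hg0 h2
  have hgx : aeval x g ≠ 0 := by
    intro h0
    apply hq₀x
    rw [hq₁, map_mul, h0, zero_mul]
  have hq₁x : aeval x q₁ ≠ 0 := by
    intro h0
    apply hq₀x
    rw [hq₁, map_mul, h0, mul_zero]
  have hp₁x : aeval x p₁ ≠ 0 := by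
    intro h0
    apply hp₀x
    rw [hp₁, map_mul, h0, mul_zero]
  have hr₁ : r * aeval x q₁ = aeval x p₁ := by
    rw [h, hp₁, hq₁, map_mul, map_mul]
    field_simp
  have hp₁0 : p₁ ≠ 0 := by rintro rfl; exact hp₁x (map_zero _)
  have hq₁0 : q₁ ≠ 0 := by rintro rfl; exact hq₁x (map_zero _)
  -- Gauss normalisation
  obtain ⟨a, p, ha0, hpG, hpa⟩ := exists_isGaussPrim A hp₁0
  obtain ⟨a', q, ha'0, hqG, hqa⟩ := exists_isGaussPrim A hq₁0
  obtain ⟨hpO, hpO'⟩ := hgauss p hpG.1 hpG.2
  obtain ⟨hqO, hqO'⟩ := hgauss q hqG.1 hqG.2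
  have hpx : aeval x p ≠ 0 := by
    intro h0; apply hp₁x; rw [hpa, map_mul, h0, mul_zero]
  have hqx : aeval x q ≠ 0 := by
    intro h0; apply hq₁x; rw [hqa, map_mul, h0, mul_zero]
  -- the constant `a / a'` is a unit of `A`
  have hconst : algebraMap K F (a / a') = r * aeval x q * (aeval x p)⁻¹ := by
    have h1 : r * (algebraMap K F a' * aeval x q) = algebraMap K F a * aeval x p := by
      have := hr₁
      rw [hpa, hqa, map_mul, map_mul, aeval_C, aeval_C] at this
      exact this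
    have ha'F : algebraMap K F a' ≠ 0 := by simpa using ha'0
    rw [map_div₀]
    field_simp
    linear_combination (-1 : F) * h1
  have hcA : a / a' ∈ A := by
    rw [← hmem, hconst]
    exact O.mul_mem _ _ (O.mul_mem _ _ hrO hqO) hpO'
  have hcA' : (a / a')⁻¹ ∈ A := by
    rw [← hmem, map_inv₀, hconst, mul_inv, mul_inv, inv_inv]
    exact O.mul_mem _ _ (O.mul_mem _ _ hrO' hqO') hpO
  have hc0 : a / a' ≠ 0 := div_ne_zero ha0 ha'0
  refine ⟨C (a / a') * p, q, hpG.C_mul hc0 hcA hcA', hqG, ?_, ?_, ?_⟩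
  · -- coprimality
    have hcop : IsCoprime p q := by
      obtain ⟨u, v, huv⟩ := hcop₁
      refine ⟨u * C a, v * C a', ?_⟩
      rw [← huv, hpa, hqa]; ring
    obtain ⟨u, v, huv⟩ := hcop
    refine ⟨u * C (a / a')⁻¹, v, ?_⟩
    rw [← huv]
    have : C (a / a')⁻¹ * C (a / a') = (1 : K[X]) := by
      rw [← C_mul, inv_mul_cancel₀ hc0, C_1]
    linear_combination (u * p) * this
  · -- no zeros of `q` in the disc
    intro c hc hqc
    have hcop : IsCoprime p q := by
      obtain ⟨u, v, huv⟩ := hcop₁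
      refine ⟨u * C a, v * C a', ?_⟩
      rw [← huv, hpa, hqa]; ring
    have hpc : p.eval c ≠ 0 := by
      obtain ⟨u, v, huv⟩ := hcop
      intro hpc
      have := congrArg (fun f : K[X] => f.eval c) huv
      simp only [eval_add, eval_mul, hpc, hqc, mul_zero, add_zero, eval_one] at this
      exact zero_ne_one this
    obtain ⟨P, hP⟩ := hfib c hc
    have h1 := hpole P ⟨c, hc, hP⟩
    obtain ⟨-, hordp⟩ := ord_aeval_eq_zero x P c hP hpc
    obtain ⟨-, hordq⟩ := ord_aeval_of_ord_sub_pos x P c hP hqG.ne_zero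
    have hmult : 0 < q.rootMultiplicity c := (rootMultiplicity_pos hqG.ne_zero).mpr hqc
    have heq : r * aeval x q = algebraMap K F (a / a') * aeval x p := by
      rw [hconst]; field_simp
    have hord := congrArg P.ord heq
    have hcF : algebraMap K F (a / a') ≠ 0 := by simpa using hc0
    rw [P.ord_mul hr0 hqx, P.ord_mul hcF hpx, Fermat.Agent.S24.ord_algebraMap P hc0, hordp,
      hordq] at hord
    have hpos : (0 : ℤ) < (q.rootMultiplicity c : ℤ) * P.ord (x - algebraMap K F c) :=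
      mul_pos (by exact_mod_cast hmult) hP
    omega
  · rw [map_mul, aeval_C, hconst]
    field_simp

end NormalForm

section Gauss

variable {F : Type*} [Field F] [Algebra K F] {O : ValuationSubring F} {x : F}

/-- An `O`-multiple of a nonunit is a nonunit. -/
lemma mul_mem_nonunits_of_mem {a m : F} (ha : a ∈ O) (hm : m ∈ O.nonunits) :
    a * m ∈ O.nonunits := by
  rw [ValuationSubring.mem_nonunits_iff] at hm ⊢
  rw [map_mul]
  have h1 : O.valuation a ≤ 1 := (O.valuation_le_one_iff a).mpr ha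
  calc O.valuation a * O.valuation m ≤ 1 * O.valuation m := mul_le_mul_left h1 _
    _ = O.valuation m := one_mul _
    _ < 1 := hm

lemma one_notMem_nonunits : (1 : F) ∉ O.nonunits := by
  rw [ValuationSubring.mem_nonunits_iff, map_one]
  exact lt_irrefl _

lemma algebraMap_mem_nonunits_iff (hmem : ∀ a : K, algebraMap K F a ∈ O ↔ a ∈ A) (a : K) :
    algebraMap K F a ∈ O.nonunits ↔ a ∈ A.nonunits := by
  rw [ValuationSubring.mem_nonunits_iff_or, ValuationSubring.mem_nonunits_iff_or, ← map_inv₀,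
    hmem, map_eq_zero]

/-- `x ∈ O` (Gauss norm one of `X`). -/
lemma mem_of_gauss
    (hgauss : ∀ p : K[X], (∀ i, p.coeff i ∈ A) → (∃ i, p.coeff i ≠ 0 ∧ (p.coeff i)⁻¹ ∈ A) →
      aeval x p ∈ O ∧ (aeval x p)⁻¹ ∈ O) : x ∈ O := by
  have h := (hgauss (X - C 0) (isGaussPrim_X_sub_C A.zero_mem).1
    (isGaussPrim_X_sub_C A.zero_mem).2).1
  simpa using h

/-- Polynomials in `x` with coefficients in `A` lie in `O`. -/
lemma aeval_mem_of_coeff_mem (hmem : ∀ a : K, algebraMap K F a ∈ O ↔ a ∈ A)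
    (hgauss : ∀ p : K[X], (∀ i, p.coeff i ∈ A) → (∃ i, p.coeff i ≠ 0 ∧ (p.coeff i)⁻¹ ∈ A) →
      aeval x p ∈ O ∧ (aeval x p)⁻¹ ∈ O)
    {f : K[X]} (hf : ∀ i, f.coeff i ∈ A) : aeval x f ∈ O := by
  have hx : x ∈ O := mem_of_gauss hgauss
  rw [aeval_eq_sum_range]
  refine sum_mem fun i _ => ?_
  rw [Algebra.smul_def]
  exact O.mul_mem _ _ ((hmem _).mpr (hf i)) (pow_mem hx i)

/-- A place over some `x = c` witnesses that `x` is transcendental over `K`. -/
lemma transcendental_of_place (P : Place K F) (c : K)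
    (hP : 0 < P.ord (x - algebraMap K F c)) : Transcendental K x := by
  rw [transcendental_iff]
  intro f hf
  by_contra h
  exact (ord_aeval_of_ord_sub_pos x P c hP h).1 hf

/-- **The reduction of `x` is transcendental over the residue field of `A`**: a polynomial in
`x` with coefficients in `A` is a nonunit of `O` iff all its coefficients are nonunits of `A`. -/
theorem aeval_mem_nonunits_iff (hmem : ∀ a : K, algebraMap K F a ∈ O ↔ a ∈ A)
    (hgauss : ∀ p : K[X], (∀ i, p.coeff i ∈ A) → (∃ i, p.coeff i ≠ 0 ∧ (p.coeff i)⁻¹ ∈ A) →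
      aeval x p ∈ O ∧ (aeval x p)⁻¹ ∈ O)
    (hx : Transcendental K x) {f : K[X]} (hf : ∀ i, f.coeff i ∈ A) :
    aeval x f ∈ O.nonunits ↔ ∀ i, f.coeff i ∈ A.nonunits := by
  have hxO : x ∈ O := mem_of_gauss hgauss
  constructor
  · intro h i
    by_contra hi
    rw [ValuationSubring.mem_nonunits_iff_or, not_or, not_not] at hi
    obtain ⟨-, h2⟩ := hgauss f hf ⟨i, hi.1, hi.2⟩
    rw [ValuationSubring.mem_nonunits_iff_or] at h
    rcases h with h | h
    · have hf0 : f = 0 := transcendental_iff.mp hx f h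
      exact hi.1 (by rw [hf0, coeff_zero])
    · exact h h2
  · intro h
    rw [aeval_eq_sum_range]
    refine sum_mem fun i _ => ?_
    rw [Algebra.smul_def, mul_comm]
    exact mul_mem_nonunits_of_mem (pow_mem hxO i) ((algebraMap_mem_nonunits_iff hmem _).mpr (h i))

/-- Products of `X - C c`, `c ∈ A`, have Gauss norm one. -/
lemma isGaussPrim_multiset_prod (s : Multiset K) (hs : ∀ c ∈ s, c ∈ A) :
    IsGaussPrim A (s.map (fun c => X - C c)).prod := by
  have hmonic : (s.map (fun c => X - C c)).prod.Monic :=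
    monic_multiset_prod_of_monic _ _ (fun c _ => monic_X_sub_C c)
  have hlift : (s.map (fun c => X - C c)).prod ∈ Polynomial.lifts (algebraMap A K) := by
    refine Subsemiring.multiset_prod_mem _ _ ?_
    intro f hf
    obtain ⟨c, hc, rfl⟩ := Multiset.mem_map.mp hf
    rw [Polynomial.mem_lifts]
    refine ⟨X - C ⟨c, hs c hc⟩, ?_⟩
    rw [Polynomial.map_sub, Polynomial.map_X, Polynomial.map_C]
    rfl
  refine ⟨fun i => ?_, (s.map (fun c => X - C c)).prod.natDegree, ?_, ?_⟩
  · rw [Polynomial.lifts_iff_coeff_lifts] at hlift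
    obtain ⟨a, ha⟩ := hlift i
    rw [← ha]
    exact a.2
  · rw [hmonic.coeff_natDegree]; exact one_ne_zero
  · rw [hmonic.coeff_natDegree, inv_one]; exact A.one_mem

/-- `∏ (x - cᵢ) ≡ (x - b)^n` modulo the nonunits of `O`, for `cᵢ` in the residue disc of `b`. -/
theorem prod_sub_pow_mem_nonunits (hmem : ∀ a : K, algebraMap K F a ∈ O ↔ a ∈ A)
    (hgauss : ∀ p : K[X], (∀ i, p.coeff i ∈ A) → (∃ i, p.coeff i ≠ 0 ∧ (p.coeff i)⁻¹ ∈ A) →
      aeval x p ∈ O ∧ (aeval x p)⁻¹ ∈ O)
    {b : K} (hb : b ∈ A) (s : Multiset K) (hs : ∀ c ∈ s, c - b ∈ A.nonunits) :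
    (s.map (fun c => x - algebraMap K F c)).prod - (x - algebraMap K F b) ^ Multiset.card s
      ∈ O.nonunits := by
  have hx : x ∈ O := mem_of_gauss hgauss
  have hxb : x - algebraMap K F b ∈ O := sub_mem hx ((hmem b).mpr hb)
  induction s using Multiset.induction_on with
  | empty => simp
  | cons c s ih =>
    have hc : c - b ∈ A.nonunits := hs c (Multiset.mem_cons_self c s)
    have ih' := ih (fun c' hc' => hs c' (Multiset.mem_cons_of_mem hc'))
    have hcA : c ∈ A := by
      simpa using A.add_mem _ _ (ValuationSubring.nonunits_subset hc) hb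
    have hxc : x - algebraMap K F c ∈ O := sub_mem hx ((hmem c).mpr hcA)
    have hbc : algebraMap K F (c - b) ∈ O.nonunits := (algebraMap_mem_nonunits_iff hmem _).mpr hc
    rw [Multiset.map_cons, Multiset.prod_cons, Multiset.card_cons, pow_succ]
    have key : (x - algebraMap K F c) * (s.map (fun c => x - algebraMap K F c)).prod
          - (x - algebraMap K F b) ^ Multiset.card s * (x - algebraMap K F b)
        = (x - algebraMap K F c) * ((s.map (fun c => x - algebraMap K F c)).prod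
            - (x - algebraMap K F b) ^ Multiset.card s)
          - (x - algebraMap K F b) ^ Multiset.card s * algebraMap K F (c - b) := by
      rw [map_sub]; ring
    rw [key]
    exact sub_mem (mul_mem_nonunits_of_mem hxc ih') (mul_mem_nonunits_of_mem (pow_mem hxb _) hbc)

/-- **Factorisation on the disc.**  A Gauss unit `r = p(x)/q(x)` (`p` of Gauss norm one, `q`
without zeros in the residue disc of `b ∈ A`) is `ε * ∏ (x - c)`, the product over the zeros `c`
of `p` in the disc, where `ε` is a unit of `O` without zeros or poles on the disc. -/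
theorem exists_disc_factorisation [IsAlgClosed K]
    (hgauss : ∀ p : K[X], (∀ i, p.coeff i ∈ A) → (∃ i, p.coeff i ≠ 0 ∧ (p.coeff i)⁻¹ ∈ A) →
      aeval x p ∈ O ∧ (aeval x p)⁻¹ ∈ O)
    (hx : Transcendental K x) {b : K} (hb : b ∈ A)
    {r : F} (hr : r ∈ K⟮x⟯) (hr0 : r ≠ 0) (hrO : r ∈ O) (hrO' : r⁻¹ ∈ O)
    {p q : K[X]} (hp : IsGaussPrim A p)
    (hqc : ∀ c : K, c - b ∈ A.nonunits → q.eval c ≠ 0) (hrpq : r * aeval x q = aeval x p) :
    ∃ (ε : F) (s : Multiset K), ε ∈ K⟮x⟯ ∧ ε ≠ 0 ∧ ε ∈ O ∧ ε⁻¹ ∈ O ∧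
      (∀ P : Place K F, (∃ c : K, c - b ∈ A.nonunits ∧ 0 < P.ord (x - algebraMap K F c)) →
        P.ord ε = 0) ∧
      (∀ c ∈ s, c - b ∈ A.nonunits) ∧ Multiset.card s = discZeros A b p ∧
      r = ε * (s.map (fun c => x - algebraMap K F c)).prod := by
  classical
  set s := p.roots.filter (fun c => c - b ∈ A.nonunits) with hs
  have hsA : ∀ c ∈ s, c ∈ A := fun c hc => by
    have h1 : c - b ∈ A.nonunits := (Multiset.mem_filter.mp hc).2
    simpa using A.add_mem _ _ (ValuationSubring.nonunits_subset h1) hb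
  set pin := (s.map (fun c => X - C c)).prod with hpin
  have hpinG : IsGaussPrim A pin := isGaussPrim_multiset_prod s hsA
  obtain ⟨hpinO, hpinO'⟩ := hgauss pin hpinG.1 hpinG.2
  have hpinx : aeval x pin = (s.map (fun c => x - algebraMap K F c)).prod := by
    rw [hpin, map_multiset_prod, Multiset.map_map]
    congr 1
    refine Multiset.map_congr rfl fun c _ => ?_
    simp
  have hpin0 : pin ≠ 0 := hpinG.ne_zero
  have hpinx0 : aeval x pin ≠ 0 := fun h => hpin0 (transcendental_iff.mp hx pin h)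
  refine ⟨r * (aeval x pin)⁻¹, s, ?_, ?_, ?_, ?_, ?_, ?_, ?_, ?_⟩
  · exact mul_mem hr (inv_mem (aeval_mem_adjoin_simple x pin))
  · exact mul_ne_zero hr0 (inv_ne_zero hpinx0)
  · exact O.mul_mem _ _ hrO hpinO'
  · rw [mul_inv, inv_inv]; exact O.mul_mem _ _ hrO' hpinO
  · rintro P ⟨c, hc, hP⟩
    obtain ⟨hpx, hordp⟩ := ord_aeval_of_ord_sub_pos x P c hP hp.ne_zero
    obtain ⟨hqx, hordq⟩ := ord_aeval_eq_zero x P c hP (hqc c hc)
    obtain ⟨-, hordpin⟩ := ord_aeval_of_ord_sub_pos x P c hP hpin0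
    have hmult : pin.rootMultiplicity c = p.rootMultiplicity c := by
      rw [← count_roots, ← count_roots, hpin, roots_multiset_prod_X_sub_C, hs,
        Multiset.count_filter_of_pos (p := fun c => c - b ∈ A.nonunits) hc]
    have h1 := congrArg P.ord hrpq
    rw [P.ord_mul hr0 hqx, hordq, hordp] at h1
    rw [P.ord_mul hr0 (inv_ne_zero hpinx0), P.ord_inv, hordpin, hmult]
    linarith
  · exact fun c hc => (Multiset.mem_filter.mp hc).2
  · rw [hs, ← Multiset.countP_eq_card_filter]; rfl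
  · rw [← hpinx]; field_simp

/-- **Congruence form**: `r ≡ ε (x - b)^n mod 𝔪_O` with `n` the number of zeros of `p` in the
disc and `ε` a unit of `O` without zeros or poles on the disc. -/
theorem exists_disc_congr [IsAlgClosed K] (hmem : ∀ a : K, algebraMap K F a ∈ O ↔ a ∈ A)
    (hgauss : ∀ p : K[X], (∀ i, p.coeff i ∈ A) → (∃ i, p.coeff i ≠ 0 ∧ (p.coeff i)⁻¹ ∈ A) →
      aeval x p ∈ O ∧ (aeval x p)⁻¹ ∈ O)
    (hx : Transcendental K x) {b : K} (hb : b ∈ A)
    {r : F} (hr : r ∈ K⟮x⟯) (hr0 : r ≠ 0) (hrO : r ∈ O) (hrO' : r⁻¹ ∈ O)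
    {p q : K[X]} (hp : IsGaussPrim A p)
    (hqc : ∀ c : K, c - b ∈ A.nonunits → q.eval c ≠ 0) (hrpq : r * aeval x q = aeval x p) :
    ∃ ε : F, ε ∈ K⟮x⟯ ∧ ε ≠ 0 ∧ ε ∈ O ∧ ε⁻¹ ∈ O ∧
      (∀ P : Place K F, (∃ c : K, c - b ∈ A.nonunits ∧ 0 < P.ord (x - algebraMap K F c)) →
        P.ord ε = 0) ∧
      r - ε * (x - algebraMap K F b) ^ discZeros A b p ∈ O.nonunits := by
  obtain ⟨ε, s, h1, h2, h3, h4, h5, h6, h7, h8⟩ :=
    exists_disc_factorisation hgauss hx hb hr hr0 hrO hrO' hp hqc hrpq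
  refine ⟨ε, h1, h2, h3, h4, h5, ?_⟩
  have key := prod_sub_pow_mem_nonunits hmem hgauss hb s h6
  rw [h7] at key
  have : r - ε * (x - algebraMap K F b) ^ discZeros A b p
      = ε * ((s.map (fun c => x - algebraMap K F c)).prod
          - (x - algebraMap K F b) ^ discZeros A b p) := by
    rw [h8]; ring
  rw [this]
  exact mul_mem_nonunits_of_mem h3 key

/-- A polynomial of Gauss norm one without zeros in the residue disc of `b ∈ A` takes a unit
value at `b`. -/
theorem eval_notMem_nonunits [IsAlgClosed K] {q : K[X]} (hq : IsGaussPrim A q) {b : K}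
    (hb : b ∈ A) (hqc : ∀ c : K, c - b ∈ A.nonunits → q.eval c ≠ 0) :
    q.eval b ∉ A.nonunits := by
  obtain ⟨f, hf, hfne, hcount⟩ := discZeros_eq_rootMultiplicity A hq ⟨b, hb⟩
  have h0 : discZeros A b q = 0 := (discZeros_eq_zero_iff A b hq.ne_zero).mpr hqc
  change discZeros A b q = _ at hcount
  rw [h0] at hcount
  intro hmem
  have hroot : (f.map (IsLocalRing.residue A)).IsRoot (IsLocalRing.residue A ⟨b, hb⟩) := by
    rw [IsRoot, Polynomial.eval_map_apply, IsLocalRing.residue_eq_zero_iff,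
      ← ValuationSubring.coe_mem_nonunits_iff]
    have h2 : ((f.eval ⟨b, hb⟩ : A) : K) = q.eval b := by
      have h3 := Polynomial.eval_map_apply (p := f) (algebraMap A K) ⟨b, hb⟩
      rw [hf] at h3
      exact h3.symm
    rw [h2]
    exact hmem
  exact hfne ((rootMultiplicity_eq_zero_iff.mp hcount.symm) hroot)

/-- "Coefficients in `A`" as membership in a subring of `K[X]`. -/
lemma coeff_mem_iff_mem_range (f : K[X]) :
    (∀ i, f.coeff i ∈ A) ↔ f ∈ (mapRingHom (algebraMap A K)).range := by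
  rw [Polynomial.mem_map_range]
  constructor
  · intro h n; exact ⟨⟨f.coeff n, h n⟩, rfl⟩
  · intro h n
    obtain ⟨a, ha⟩ := h n
    rw [← ha]
    exact a.2

/-- **Weak normal form**: an element of `K(x) ∩ O` is `P(x)/q(x)` with `P` integral and `q` of
Gauss norm one. -/
theorem exists_weak_normal_form (hmem : ∀ a : K, algebraMap K F a ∈ O ↔ a ∈ A)
    (hgauss : ∀ p : K[X], (∀ i, p.coeff i ∈ A) → (∃ i, p.coeff i ≠ 0 ∧ (p.coeff i)⁻¹ ∈ A) →
      aeval x p ∈ O ∧ (aeval x p)⁻¹ ∈ O)
    {r : F} (hr : r ∈ K⟮x⟯) (hrO : r ∈ O) :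
    ∃ P q : K[X], (∀ i, P.coeff i ∈ A) ∧ IsGaussPrim A q ∧ aeval x q ≠ 0 ∧
      r * aeval x q = aeval x P := by
  obtain ⟨p₀, q₀, h⟩ := (mem_adjoin_simple_iff K r).mp hr
  by_cases hr0 : r = 0
  · by_cases hq₀x : aeval x q₀ = 0
    · -- degenerate: then `1` does the job
      refine ⟨0, 1, fun i => by rw [coeff_zero]; exact A.zero_mem, ?_, by simp, by simp [hr0]⟩
      refine ⟨fun i => ?_, 0, by simp, by simp [A.one_mem]⟩
      rw [coeff_one]; split_ifs
      · exact A.one_mem
      · exact A.zero_mem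
    · have hq₀ : q₀ ≠ 0 := by rintro rfl; exact hq₀x (map_zero _)
      obtain ⟨a', q, ha'0, hqG, hqa⟩ := exists_isGaussPrim A hq₀
      refine ⟨0, q, fun i => by rw [coeff_zero]; exact A.zero_mem, hqG, ?_, by simp [hr0]⟩
      intro h0
      apply hq₀x
      rw [hqa, map_mul, h0, mul_zero]
  · have hq₀x : aeval x q₀ ≠ 0 := by
      intro h0
      rw [h0, div_zero] at h
      exact hr0 h
    have hp₀x : aeval x p₀ ≠ 0 := by
      intro h0
      rw [h0, zero_div] at h
      exact hr0 h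
    have hq₀ : q₀ ≠ 0 := by rintro rfl; exact hq₀x (map_zero _)
    have hp₀ : p₀ ≠ 0 := by rintro rfl; exact hp₀x (map_zero _)
    obtain ⟨a, p, ha0, hpG, hpa⟩ := exists_isGaussPrim A hp₀
    obtain ⟨a', q, ha'0, hqG, hqa⟩ := exists_isGaussPrim A hq₀
    obtain ⟨hpO, hpO'⟩ := hgauss p hpG.1 hpG.2
    obtain ⟨hqO, hqO'⟩ := hgauss q hqG.1 hqG.2
    have hpx : aeval x p ≠ 0 := by
      intro h0; apply hp₀x; rw [hpa, map_mul, h0, mul_zero]
    have hqx : aeval x q ≠ 0 := by
      intro h0; apply hq₀x; rw [hqa, map_mul, h0, mul_zero]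
    have ha'F : algebraMap K F a' ≠ 0 := by simpa using ha'0
    have hconst : algebraMap K F (a / a') = r * aeval x q * (aeval x p)⁻¹ := by
      rw [h, hpa, hqa, map_mul, map_mul, aeval_C, aeval_C, map_div₀]
      field_simp
    have hcA : a / a' ∈ A := by
      rw [← hmem, hconst]
      exact O.mul_mem _ _ (O.mul_mem _ _ hrO hqO) hpO'
    refine ⟨C (a / a') * p, q, fun i => ?_, hqG, hqx, ?_⟩
    · rw [coeff_C_mul]; exact A.mul_mem _ _ hcA (hpG.1 i)
    · rw [map_mul, aeval_C, hconst]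
      field_simp

/-- **`x - b` stays a nonunit on the disc**: no `s ∈ K(x) ∩ O` without poles on the residue
disc of `b` satisfies `(x - b) s ≡ 1` modulo the nonunits of `O`. -/
theorem sub_mul_sub_one_notMem_nonunits [IsAlgClosed K]
    (hmem : ∀ a : K, algebraMap K F a ∈ O ↔ a ∈ A)
    (hgauss : ∀ p : K[X], (∀ i, p.coeff i ∈ A) → (∃ i, p.coeff i ≠ 0 ∧ (p.coeff i)⁻¹ ∈ A) →
      aeval x p ∈ O ∧ (aeval x p)⁻¹ ∈ O)
    {b : K} (hb : b ∈ A)
    (hfib : ∀ c : K, c - b ∈ A.nonunits → ∃ P : Place K F, 0 < P.ord (x - algebraMap K F c))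
    {s : F} (hs : s ∈ K⟮x⟯) (hsO : s ∈ O)
    (hpole : ∀ P : Place K F,
      (∃ c : K, c - b ∈ A.nonunits ∧ 0 < P.ord (x - algebraMap K F c)) → 0 ≤ P.ord s) :
    (x - algebraMap K F b) * s - 1 ∉ O.nonunits := by
  intro hmem1
  have hxO : x ∈ O := mem_of_gauss hgauss
  have hxb : x - algebraMap K F b ∈ O := sub_mem hxO ((hmem b).mpr hb)
  obtain ⟨P₀, hP₀⟩ := hfib b (by rw [sub_self]; exact A.nonunits.zero_mem)
  have hx : Transcendental K x := transcendental_of_place P₀ b hP₀
  have hs_nn : s ∉ O.nonunits := by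
    intro hsn
    apply one_notMem_nonunits (O := O)
    have := sub_mem (mul_mem_nonunits_of_mem hxb hsn) hmem1
    simpa using this
  rw [ValuationSubring.mem_nonunits_iff_or, not_or, not_not] at hs_nn
  obtain ⟨hs0, hsO'⟩ := hs_nn
  obtain ⟨p, q, hp, hq, -, hqc, hpq⟩ :=
    exists_disc_normal_form hmem hgauss b hfib hs hs0 hsO hsO' hpole
  have hf : ∀ i, ((X - C b) * p - q).coeff i ∈ A := by
    rw [coeff_mem_iff_mem_range]
    exact sub_mem (mul_mem ((coeff_mem_iff_mem_range _).mp (isGaussPrim_X_sub_C hb).1)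
      ((coeff_mem_iff_mem_range _).mp hp.1)) ((coeff_mem_iff_mem_range _).mp hq.1)
  have hqO : aeval x q ∈ O := (hgauss q hq.1 hq.2).1
  have haev : aeval x ((X - C b) * p - q) = aeval x q * ((x - algebraMap K F b) * s - 1) := by
    rw [map_sub, map_mul, map_sub, aeval_X, aeval_C, ← hpq]
    ring
  have hnon : aeval x ((X - C b) * p - q) ∈ O.nonunits := by
    rw [haev]
    exact mul_mem_nonunits_of_mem hqO hmem1
  have hcoeff := (aeval_mem_nonunits_iff hmem hgauss hx hf).mp hnon
  have heval : ((X - C b) * p - q).eval b ∈ A.nonunits := by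
    rw [eval_eq_sum_range]
    refine sum_mem fun i _ => ?_
    rw [mul_comm]
    exact mul_mem_nonunits_of_mem (pow_mem hb i) (hcoeff i)
  have heq : ((X - C b) * p - q).eval b = - q.eval b := by
    simp
  rw [heq] at heval
  exact eval_notMem_nonunits hq hb hqc (by simpa using neg_mem heval)

end Gauss

end Fermat.Agent.S18.H4
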