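/-
helper4 — S18 / Program J, leaf C1-D2 (Gauss count on `K(x)`), part B: the residue side.

Setting: the S18 `Setup` fields `mem_iff`, `gauss`, a centre `b ∈ A` whose residue disc carries
places (`fib`), and ANY presentation of the residue plumbing:
* `OL : ValuationSubring K⟮x⟯` with `r ∈ OL ↔ (r : F) ∈ O`             (`O ∩ K(x)`),
* a field `κL` with a ring hom `red : ↥OL →+* κL` whose kernel is the nonunits,
* a subring `R ⊆ κL` whose elements are the reductions of the elements of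
  `R_b = K(x) ∩ discRing A O x b`                                        (`R = red(R_b)`).
This is packaged in the `Prop`-structure `DiscResidue`.

Results (`DiscResidue.*`):
* `isDiscreteValuationRing` : `R` is a discrete valuation ring;
* `irreducible`             : the reduction of `x - b` is a uniformiser of `R`;
* `associated_pow`          : a Gauss unit `d = p(x)/q(x)` of `R_b` (disc normal form) reduces to
                              a unit times the `discZeros A b p`-th power of the uniformiser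
                              ("zeros in the disc = order of the reduction");
* `not_pow_succ_dvd`        : the same as a non-divisibility;
* `isFractionRing`          : `κL` is the fraction field of `R` (when `red` is surjective).
-/
import Mathlib
import Fermat.Agent.S18.H74.CoreDefs
import Fermat.Agent.S18.H4.GaussCount

set_option autoImplicit false

open Polynomial AlgebraicCurve IntermediateField

namespace Fermat.Agent.S18.H4

variable {K : Type*} [Field K] {F : Type*} [Field F] [Algebra K F]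

/-- Residue data of the disc of `b` (see the file header). -/
structure DiscResidue (A : ValuationSubring K) (O : ValuationSubring F) (x : F) (b : K)
    (OL : ValuationSubring K⟮x⟯) {κL : Type*} [Field κL] (red : ↥OL →+* κL) (R : Subring κL) :
    Prop where
  /-- `Setup.mem_iff`. -/
  mem_iff : ∀ a : K, algebraMap K F a ∈ O ↔ a ∈ A
  /-- `Setup.gauss`. -/
  gauss : ∀ p : K[X], (∀ i, p.coeff i ∈ A) → (∃ i, p.coeff i ≠ 0 ∧ (p.coeff i)⁻¹ ∈ A) →
    aeval x p ∈ O ∧ (aeval x p)⁻¹ ∈ O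
  /-- the centre of the disc is integral. -/
  mem_A : b ∈ A
  /-- every point of the residue disc of `b` carries a place. -/
  fib : ∀ c : K, c - b ∈ A.nonunits → ∃ P : Place K F, 0 < P.ord (x - algebraMap K F c)
  /-- `OL = O ∩ K(x)`. -/
  mem_OL : ∀ r : K⟮x⟯, r ∈ OL ↔ (r : F) ∈ O
  /-- the kernel of `red` is the maximal ideal. -/
  red_eq_zero : ∀ r : ↥OL, red r = 0 ↔ ((r : K⟮x⟯) : F) ∈ O.nonunits
  /-- `R = red(R_b)`. -/
  mem_R : ∀ z : κL, z ∈ R ↔ ∃ r : ↥OL, ((r : K⟮x⟯) : F) ∈ H74.discRing A O x b ∧ red r = z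

namespace DiscResidue

variable {A : ValuationSubring K} {O : ValuationSubring F} {x : F} {b : K}
  {OL : ValuationSubring K⟮x⟯} {κL : Type*} [Field κL] {red : ↥OL →+* κL} {R : Subring κL}

section Basic

variable (h : DiscResidue A O x b OL red R)
include h

lemma transcendental : Transcendental K x := by
  obtain ⟨P, hP⟩ := h.fib b (by rw [sub_self]; exact A.nonunits.zero_mem)
  exact transcendental_of_place P b hP

lemma coe_mem (r : ↥OL) : ((r : K⟮x⟯) : F) ∈ O := (h.mem_OL _).mp r.2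

/-- Elements congruent modulo the nonunits of `O` have the same reduction. -/
lemma red_eq_of_sub_mem {r s : ↥OL}
    (hrs : ((r : K⟮x⟯) : F) - ((s : K⟮x⟯) : F) ∈ O.nonunits) : red r = red s := by
  rw [← sub_eq_zero, ← map_sub, h.red_eq_zero]
  exact hrs

lemma red_mem {r : ↥OL} (hr : ((r : K⟮x⟯) : F) ∈ H74.discRing A O x b) : red r ∈ R :=
  (h.mem_R _).mpr ⟨r, hr, rfl⟩

/-- Polynomials in `x` with coefficients in `A` lie in the disc ring. -/
lemma aeval_mem_discRing {f : K[X]} (hf : ∀ i, f.coeff i ∈ A) :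
    aeval x f ∈ H74.discRing A O x b := by
  refine ⟨aeval_mem_of_coeff_mem h.mem_iff h.gauss hf, ?_⟩
  rintro P ⟨c, -, hP⟩
  exact ord_aeval_nonneg x P (ord_nonneg_of_ord_sub_pos x P c hP) f

lemma sub_mem_discRing : x - algebraMap K F b ∈ H74.discRing A O x b := by
  have := h.aeval_mem_discRing (isGaussPrim_X_sub_C h.mem_A).1
  simpa using this

lemma sub_ne_zero : x - algebraMap K F b ≠ 0 := by
  obtain ⟨P, hP⟩ := h.fib b (by rw [sub_self]; exact A.nonunits.zero_mem)
  intro h0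
  rw [h0, Place.ord_zero] at hP
  exact lt_irrefl _ hP

lemma sub_notMem_nonunits : x - algebraMap K F b ∉ O.nonunits := by
  rw [ValuationSubring.mem_nonunits_iff_or, not_or, not_not]
  refine ⟨h.sub_ne_zero, ?_⟩
  have := (h.gauss (X - C b) (isGaussPrim_X_sub_C h.mem_A).1 (isGaussPrim_X_sub_C h.mem_A).2).2
  simpa using this

/-- The reduction of `x - b` is nonzero. -/
theorem unif_ne_zero {xb : ↥OL} (hxb : ((xb : K⟮x⟯) : F) = x - algebraMap K F b) {ϖ : ↥R}
    (hϖ : (ϖ : κL) = red xb) : ϖ ≠ 0 := by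
  intro h0
  have h1 : red xb = 0 := by rw [← hϖ, h0]; rfl
  rw [h.red_eq_zero, hxb] at h1
  exact h.sub_notMem_nonunits h1

/-- The reduction of `x - b`, as an element of `R`. -/
theorem exists_unif : ∃ (xb : ↥OL) (ϖ : ↥R),
    ((xb : K⟮x⟯) : F) = x - algebraMap K F b ∧ (ϖ : κL) = red xb := by
  have h1 : x - algebraMap K F b ∈ K⟮x⟯ :=
    sub_mem (mem_adjoin_simple_self K x) (IntermediateField.algebraMap_mem _ b)
  have h2 := h.sub_mem_discRing
  exact ⟨⟨⟨x - algebraMap K F b, h1⟩, (h.mem_OL _).mpr h2.1⟩, ⟨_, h.red_mem h2⟩, rfl, rfl⟩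

/-- **`κL` is the fraction field of `R`** (for surjective `red`). -/
theorem isFractionRing (hsurj : Function.Surjective red) : IsFractionRing ↥R κL := by
  refine IsFractionRing.of_field ↥R κL fun z => ?_
  obtain ⟨r, rfl⟩ := hsurj z
  obtain ⟨P, q, hP, hq, hqx, hPq⟩ := exists_weak_normal_form h.mem_iff h.gauss r.1.2 (h.coe_mem r)
  have hPd := h.aeval_mem_discRing hP
  have hqd := h.aeval_mem_discRing hq.1
  set nP : ↥OL := ⟨⟨aeval x P, aeval_mem_adjoin_simple x P⟩, (h.mem_OL _).mpr hPd.1⟩ with hnP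
  set nq : ↥OL := ⟨⟨aeval x q, aeval_mem_adjoin_simple x q⟩, (h.mem_OL _).mpr hqd.1⟩ with hnq
  have hmul : r * nq = nP := Subtype.ext (Subtype.ext hPq)
  have hq0 : red nq ≠ 0 := by
    rw [Ne, h.red_eq_zero, ValuationSubring.mem_nonunits_iff_or, not_or, not_not]
    exact ⟨hqx, (h.gauss q hq.1 hq.2).2⟩
  refine ⟨⟨red nP, h.red_mem hPd⟩, ⟨red nq, h.red_mem hqd⟩, ?_⟩
  change red r = red nP / red nq
  rw [eq_div_iff hq0, ← map_mul, hmul]

end Basic

section Main

variable [IsAlgClosed K] (h : DiscResidue A O x b OL red R)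
include h

/-- **Zeros in the disc = order of the reduction.**  A Gauss unit `d` of `R_b`, written in a disc
normal form `d = p(x)/q(x)`, reduces to a unit of `R` times `ϖ ^ discZeros A b p`, where `ϖ` is the
reduction of `x - b`. -/
theorem associated_pow {xb : ↥OL} (hxb : ((xb : K⟮x⟯) : F) = x - algebraMap K F b) {ϖ : ↥R}
    (hϖ : (ϖ : κL) = red xb) {d : ↥OL} (hd : ((d : K⟮x⟯) : F) ∈ H74.discRing A O x b)
    (hd0 : ((d : K⟮x⟯) : F) ≠ 0) (hdO' : (((d : K⟮x⟯) : F))⁻¹ ∈ O)
    {p q : K[X]} (hp : IsGaussPrim A p) (hqc : ∀ c : K, c - b ∈ A.nonunits → q.eval c ≠ 0)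
    (hpq : ((d : K⟮x⟯) : F) * aeval x q = aeval x p) {dbar : ↥R} (hdbar : (dbar : κL) = red d) :
    Associated (ϖ ^ discZeros A b p) dbar := by
  obtain ⟨ε, hε1, hε0, hεO, hεO', hεord, hcong⟩ :=
    exists_disc_congr h.mem_iff h.gauss h.transcendental h.mem_A d.1.2 hd0 hd.1 hdO' hp hqc hpq
  set e : ↥OL := ⟨⟨ε, hε1⟩, (h.mem_OL _).mpr hεO⟩ with he
  set e' : ↥OL := ⟨⟨ε⁻¹, inv_mem hε1⟩, (h.mem_OL _).mpr hεO'⟩ with he'
  have hred : red d = red e * red xb ^ discZeros A b p := by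
    rw [← map_pow, ← map_mul]
    apply h.red_eq_of_sub_mem
    have : (((e * xb ^ discZeros A b p : ↥OL) : K⟮x⟯) : F)
        = ε * (x - algebraMap K F b) ^ discZeros A b p := by
      rw [← hxb]; rfl
    rw [this]
    exact hcong
  have hee' : red e * red e' = 1 := by
    rw [← map_mul]
    have : e * e' = 1 := Subtype.ext (Subtype.ext (mul_inv_cancel₀ hε0))
    rw [this, map_one]
  have heR : red e ∈ R := h.red_mem ⟨hεO, fun P hP => (hεord P hP).ge⟩
  have he'R : red e' ∈ R := by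
    refine h.red_mem ⟨hεO', fun P hP => ?_⟩
    change 0 ≤ P.ord ε⁻¹
    rw [P.ord_inv, hεord P hP, neg_zero]
  refine ⟨⟨⟨red e, heR⟩, ⟨red e', he'R⟩, Subtype.ext hee', Subtype.ext ?_⟩, Subtype.ext ?_⟩
  · change red e' * red e = 1
    rw [mul_comm]; exact hee'
  · change (ϖ : κL) ^ discZeros A b p * red e = (dbar : κL)
    rw [hdbar, hred, hϖ, mul_comm]

/-- The reduction of `x - b` is not a unit of `R`. -/
theorem not_isUnit {xb : ↥OL} (hxb : ((xb : K⟮x⟯) : F) = x - algebraMap K F b) {ϖ : ↥R}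
    (hϖ : (ϖ : κL) = red xb) : ¬ IsUnit ϖ := by
  intro hu
  obtain ⟨z, hz⟩ := hu.exists_right_inv
  obtain ⟨s, hs, hsz⟩ := (h.mem_R z).mp z.2
  have h1 : red (xb * s - 1) = 0 := by
    rw [map_sub, map_mul, map_one, hsz, ← hϖ, sub_eq_zero]
    exact congrArg Subtype.val hz
  rw [h.red_eq_zero] at h1
  have h2 : (((xb * s - 1 : ↥OL) : K⟮x⟯) : F) = (x - algebraMap K F b) * ((s : K⟮x⟯) : F) - 1 := by
    rw [← hxb]; rfl
  rw [h2] at h1
  exact sub_mul_sub_one_notMem_nonunits h.mem_iff h.gauss h.mem_A h.fib s.1.2 hs.1 hs.2 h1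

/-- Every nonzero element of `R` is a unit times a power of the reduction of `x - b`. -/
theorem exists_associated_pow {xb : ↥OL} (hxb : ((xb : K⟮x⟯) : F) = x - algebraMap K F b)
    {ϖ : ↥R} (hϖ : (ϖ : κL) = red xb) {z : ↥R} (hz : z ≠ 0) :
    ∃ n : ℕ, Associated (ϖ ^ n) z := by
  obtain ⟨d, hd, hdz⟩ := (h.mem_R z).mp z.2
  have hdn : ((d : K⟮x⟯) : F) ∉ O.nonunits := by
    intro hdn
    apply hz
    apply Subtype.ext
    rw [← hdz, (h.red_eq_zero d).mpr hdn]
    rfl
  rw [ValuationSubring.mem_nonunits_iff_or, not_or, not_not] at hdn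
  obtain ⟨hd0, hdO'⟩ := hdn
  obtain ⟨p, q, hp, -, -, hqc, hpq⟩ :=
    exists_disc_normal_form h.mem_iff h.gauss b h.fib d.1.2 hd0 hd.1 hdO' hd.2
  exact ⟨discZeros A b p, h.associated_pow hxb hϖ hd hd0 hdO' hp hqc hpq hdz.symm⟩

/-- **The reduction of `x - b` is a uniformiser of `R`.** -/
theorem irreducible {xb : ↥OL} (hxb : ((xb : K⟮x⟯) : F) = x - algebraMap K F b) {ϖ : ↥R}
    (hϖ : (ϖ : κL) = red xb) : Irreducible ϖ := by
  have hnu := h.not_isUnit hxb hϖ
  have hϖ0 := h.unif_ne_zero hxb hϖ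
  rw [irreducible_iff]
  refine ⟨hnu, fun a c hac => ?_⟩
  have ha0 : a ≠ 0 := by rintro rfl; exact hϖ0 (by rw [hac, zero_mul])
  have hc0 : c ≠ 0 := by rintro rfl; exact hϖ0 (by rw [hac, mul_zero])
  obtain ⟨m, u, hu⟩ := h.exists_associated_pow hxb hϖ ha0
  obtain ⟨n, v, hv⟩ := h.exists_associated_pow hxb hϖ hc0
  rcases m with _ | m
  · left
    rw [← hu, pow_zero, one_mul]
    exact u.isUnit
  rcases n with _ | n
  · right
    rw [← hv, pow_zero, one_mul]
    exact v.isUnit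
  exfalso
  apply hnu
  have h1 : ϖ * 1 = ϖ * (ϖ * (ϖ ^ (m + n) * (u * v))) := by
    rw [mul_one]
    conv_lhs => rw [hac, ← hu, ← hv]
    ring
  have h2 := mul_left_cancel₀ hϖ0 h1
  exact IsUnit.of_mul_eq_one _ h2.symm

/-- **`R = red(R_b)` is a discrete valuation ring.** -/
theorem isDiscreteValuationRing : IsDiscreteValuationRing ↥R := by
  obtain ⟨xb, ϖ, hxb, hϖ⟩ := h.exists_unif
  exact IsDiscreteValuationRing.ofHasUnitMulPowIrreducibleFactorization
    ⟨ϖ, h.irreducible hxb hϖ, fun hz => h.exists_associated_pow hxb hϖ hz⟩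

/-- Non-divisibility form of `associated_pow` (the `hdr` input of the local discriminant
lemma). -/
theorem not_pow_succ_dvd {xb : ↥OL} (hxb : ((xb : K⟮x⟯) : F) = x - algebraMap K F b) {ϖ : ↥R}
    (hϖ : (ϖ : κL) = red xb) {d : ↥OL} (hd : ((d : K⟮x⟯) : F) ∈ H74.discRing A O x b)
    (hd0 : ((d : K⟮x⟯) : F) ≠ 0) (hdO' : (((d : K⟮x⟯) : F))⁻¹ ∈ O)
    {p q : K[X]} (hp : IsGaussPrim A p) (hqc : ∀ c : K, c - b ∈ A.nonunits → q.eval c ≠ 0)
    (hpq : ((d : K⟮x⟯) : F) * aeval x q = aeval x p) {dbar : ↥R} (hdbar : (dbar : κL) = red d)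
    {n : ℕ} (hn : discZeros A b p ≤ n) : ¬ ϖ ^ (n + 1) ∣ dbar := by
  intro hdvd
  have hassoc := h.associated_pow hxb hϖ hd hd0 hdO' hp hqc hpq hdbar
  have h1 : ϖ ^ (n + 1) ∣ ϖ ^ discZeros A b p := hdvd.trans hassoc.symm.dvd
  have h2 := (pow_dvd_pow_iff (h.unif_ne_zero hxb hϖ) (h.not_isUnit hxb hϖ)).mp h1
  omega

end Main

end DiscResidue

end Fermat.Agent.S18.H4
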