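/-
helper4 — S18 / Program J, leaf C1-D2 (Gauss count), part C: exports for the Key Lemma nodes
`key_ic` / `key_gen` of the C1 sub-skeleton (report #1448), on top of the landed `DiscResidue`.

* `DiscResidue.exists_factor_of_associated` : a Gauss unit `d` of `R_b` whose reduction is a
  uniformiser of `R = red(R_b)` has exactly one simple zero on the disc:
  `d = (x - c0) ε`, `c0` in the disc, `ε` a unit of `R_b`;
* `DiscResidue.exists_factor_of_red_eq`     : the same for `red d = ϖ * unit`;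
* `DiscResidue.exists_dvd_sub`              : the residue field of `R` is the residue field of
  `A`: every `z ∈ R` is congruent modulo the uniformiser to the reduction of a constant `a0 ∈ A`;
* `discResidue_Rbar`, `discResidue_of_setup` : the landed objects `H80.OL O x`, `residue`,
  `H5.Rbar A O x b` form a `DiscResidue` (so `H5.Rbar A O x b` is a discrete valuation ring with
  uniformiser the reduction of `x - b` and fraction field the residue field of `O ∩ K(x)`).
-/
import Mathlib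
import Fermat.Agent.S18.H4.DiscDVR
import Fermat.Agent.S18.H5.Defs
import Fermat.Agent.S18.H42.Fibres
import Fermat.Agent.S18.H22.Subspaces

set_option autoImplicit false

open Polynomial AlgebraicCurve IntermediateField

namespace Fermat.Agent.S18.H4

variable {K : Type*} [Field K] {F : Type*} [Field F] [Algebra K F]

/-- Polynomials with coefficients in `A` take values in `A` on `A`. -/
lemma eval_mem_of_coeff_mem {A : ValuationSubring K} {f : K[X]} (hf : ∀ i, f.coeff i ∈ A) {b : K}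
    (hb : b ∈ A) : f.eval b ∈ A := by
  rw [eval_eq_sum_range]
  exact sum_mem fun i _ => A.mul_mem _ _ (hf i) (pow_mem hb i)

/-- A polynomial with coefficients in `A` vanishing at `b ∈ A` is `(X - b)` times a polynomial
with coefficients in `A`. -/
lemma exists_eq_X_sub_C_mul {A : ValuationSubring K} {f : K[X]} (hf : ∀ i, f.coeff i ∈ A) {b : K}
    (hb : b ∈ A) (hfb : f.eval b = 0) :
    ∃ g : K[X], (∀ i, g.coeff i ∈ A) ∧ f = (X - C b) * g := by
  obtain ⟨fA, rfl⟩ := (coeff_mem_iff_mem_range f).mp hf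
  have hroot : fA.IsRoot ⟨b, hb⟩ := by
    have h1 := Polynomial.eval_map_apply (p := fA) (algebraMap A K) ⟨b, hb⟩
    have h2 : algebraMap A K (fA.eval ⟨b, hb⟩) = 0 := by
      rw [← h1]; exact hfb
    exact (map_eq_zero_iff _ (Subtype.coe_injective)).mp h2
  obtain ⟨gA, hgA⟩ := Polynomial.dvd_iff_isRoot.mpr hroot
  refine ⟨gA.map (algebraMap A K), (coeff_mem_iff_mem_range _).mpr ⟨gA, rfl⟩, ?_⟩
  change fA.map (algebraMap A K) = _
  rw [hgA, Polynomial.map_mul, Polynomial.map_sub, Polynomial.map_X, Polynomial.map_C]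
  rfl

namespace DiscResidue

variable {A : ValuationSubring K} {O : ValuationSubring F} {x : F} {b : K}
  {OL : ValuationSubring K⟮x⟯} {κL : Type*} [Field κL] {red : ↥OL →+* κL} {R : Subring κL}

variable [IsAlgClosed K] (h : DiscResidue A O x b OL red R)
include h

/-- **Simple zero.**  A Gauss unit `d` of `R_b` whose reduction is associated to the reduction
`ϖ` of `x - b` is `(x - c0) ε` with `c0` in the residue disc of `b` and `ε` a unit of `R_b`. -/
theorem exists_factor_of_associated {xb : ↥OL} (hxb : ((xb : K⟮x⟯) : F) = x - algebraMap K F b)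
    {ϖ : ↥R} (hϖ : (ϖ : κL) = red xb) {d : ↥OL}
    (hd : ((d : K⟮x⟯) : F) ∈ H74.discRing A O x b) (hd0 : ((d : K⟮x⟯) : F) ≠ 0)
    (hdO' : (((d : K⟮x⟯) : F))⁻¹ ∈ O) {dbar : ↥R} (hdbar : (dbar : κL) = red d)
    (hassoc : Associated ϖ dbar) :
    ∃ (c0 : K) (ε : K⟮x⟯), c0 - b ∈ A.nonunits ∧
      ((d : K⟮x⟯) : F) = (x - algebraMap K F c0) * (ε : F) ∧
      (ε : F) ∈ H74.discRing A O x b ∧ (ε : F)⁻¹ ∈ H74.discRing A O x b := by
  obtain ⟨p, q, hp, -, -, hqc, hpq⟩ :=
    exists_disc_normal_form h.mem_iff h.gauss b h.fib d.1.2 hd0 hd.1 hdO' hd.2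
  have h1 := h.associated_pow hxb hϖ hd hd0 hdO' hp hqc hpq hdbar
  have hn : discZeros A b p = 1 := by
    have h2 : Associated (ϖ ^ discZeros A b p) (ϖ ^ 1) := by
      rw [pow_one]; exact h1.trans hassoc.symm
    have hϖ0 := h.unif_ne_zero hxb hϖ
    have hnu := h.not_isUnit hxb hϖ
    have h3 := (pow_dvd_pow_iff hϖ0 hnu).mp h2.dvd
    have h4 := (pow_dvd_pow_iff hϖ0 hnu).mp h2.symm.dvd
    omega
  obtain ⟨ε, s, hε1, hε0, hεO, hεO', hεord, hs, hcard, hfac⟩ :=
    exists_disc_factorisation h.gauss h.transcendental h.mem_A d.1.2 hd0 hd.1 hdO' hp hqc hpq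
  rw [hn, Multiset.card_eq_one] at hcard
  obtain ⟨c0, rfl⟩ := hcard
  refine ⟨c0, ⟨ε, hε1⟩, hs c0 (Multiset.mem_singleton_self c0), ?_,
    ⟨hεO, fun P hP => (hεord P hP).ge⟩, ⟨hεO', fun P hP => ?_⟩⟩
  · rw [hfac, Multiset.map_singleton, Multiset.prod_singleton, mul_comm]
  · change 0 ≤ P.ord ε⁻¹
    rw [P.ord_inv, hεord P hP, neg_zero]

/-- **Simple zero**, in the shape produced by the norm of a generator of a maximal ideal of
residue degree one: `red d = ϖ * u` with `u` a unit of `R`. -/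
theorem exists_factor_of_red_eq {xb : ↥OL} (hxb : ((xb : K⟮x⟯) : F) = x - algebraMap K F b)
    {ϖ : ↥R} (hϖ : (ϖ : κL) = red xb) {d : ↥OL}
    (hd : ((d : K⟮x⟯) : F) ∈ H74.discRing A O x b) (hd0 : ((d : K⟮x⟯) : F) ≠ 0)
    (hdO' : (((d : K⟮x⟯) : F))⁻¹ ∈ O) {u : ↥R} (hu : IsUnit u)
    (hred : red d = (ϖ : κL) * (u : κL)) :
    ∃ (c0 : K) (ε : K⟮x⟯), c0 - b ∈ A.nonunits ∧
      ((d : K⟮x⟯) : F) = (x - algebraMap K F c0) * (ε : F) ∧
      (ε : F) ∈ H74.discRing A O x b ∧ (ε : F)⁻¹ ∈ H74.discRing A O x b := by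
  refine h.exists_factor_of_associated hxb hϖ hd hd0 hdO' (dbar := ⟨red d, h.red_mem hd⟩) rfl
    ⟨hu.unit, Subtype.ext ?_⟩
  change (ϖ : κL) * (u : κL) = red d
  exact hred.symm

omit [IsAlgClosed K] in
/-- An element of `O ∩ K(x)` with nonzero reduction is nonzero and invertible in `O`. -/
theorem ne_zero_and_inv_mem_of_red_ne_zero {d : ↥OL} (hred : red d ≠ 0) :
    ((d : K⟮x⟯) : F) ≠ 0 ∧ (((d : K⟮x⟯) : F))⁻¹ ∈ O := by
  have hdn : ((d : K⟮x⟯) : F) ∉ O.nonunits := fun hdn => hred ((h.red_eq_zero d).mpr hdn)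
  rw [ValuationSubring.mem_nonunits_iff_or, not_or, not_not] at hdn
  exact hdn

/-- **The residue field of `R = red(R_b)` is that of `A`**: every element of `R` is congruent
modulo the uniformiser `ϖ` to the reduction of a constant `a0 ∈ A`. -/
theorem exists_dvd_sub {xb : ↥OL} (hxb : ((xb : K⟮x⟯) : F) = x - algebraMap K F b)
    {ϖ : ↥R} (hϖ : (ϖ : κL) = red xb) (z : ↥R) :
    ∃ a0 : K, a0 ∈ A ∧ ∀ a : ↥OL, ((a : K⟮x⟯) : F) = algebraMap K F a0 →
      ∀ abar : ↥R, (abar : κL) = red a → ϖ ∣ z - abar := by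
  obtain ⟨d, hd, hdz⟩ := (h.mem_R z).mp z.2
  by_cases hdn : ((d : K⟮x⟯) : F) ∈ O.nonunits
  · -- `z = 0`
    refine ⟨0, A.zero_mem, fun a ha abar habar => ?_⟩
    have hz0 : z = 0 := Subtype.ext (by rw [← hdz, (h.red_eq_zero d).mpr hdn]; rfl)
    have ha0 : a = 0 := Subtype.ext (Subtype.ext (by rw [ha, map_zero]; rfl))
    have habar0 : abar = 0 := Subtype.ext (by rw [habar, ha0, map_zero]; rfl)
    rw [hz0, habar0, sub_zero]
    exact dvd_zero _
  · rw [ValuationSubring.mem_nonunits_iff_or, not_or, not_not] at hdn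
    obtain ⟨hd0, hdO'⟩ := hdn
    obtain ⟨p, q, hp, hq, -, hqc, hpq⟩ :=
      exists_disc_normal_form h.mem_iff h.gauss b h.fib d.1.2 hd0 hd.1 hdO' hd.2
    have hb := h.mem_A
    have hqb : q.eval b ∉ A.nonunits := eval_notMem_nonunits hq hb hqc
    rw [ValuationSubring.mem_nonunits_iff_or, not_or, not_not] at hqb
    obtain ⟨hqb0, hqbinv⟩ := hqb
    have hpb : p.eval b ∈ A := eval_mem_of_coeff_mem hp.1 hb
    have ha0 : p.eval b * (q.eval b)⁻¹ ∈ A := A.mul_mem _ _ hpb hqbinv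
    refine ⟨p.eval b * (q.eval b)⁻¹, ha0, fun a ha abar habar => ?_⟩
    -- `p - a0 q = (X - b) g`
    have hf : ∀ i, (p - C (p.eval b * (q.eval b)⁻¹) * q).coeff i ∈ A := by
      intro i
      rw [coeff_sub, coeff_C_mul]
      exact sub_mem (hp.1 i) (A.mul_mem _ _ ha0 (hq.1 i))
    have hfb : (p - C (p.eval b * (q.eval b)⁻¹) * q).eval b = 0 := by
      rw [eval_sub, eval_mul, eval_C, mul_assoc, inv_mul_cancel₀ hqb0, mul_one, sub_self]
    obtain ⟨g, hg, hfg⟩ := exists_eq_X_sub_C_mul hf hb hfb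
    have hqx : aeval x q ≠ 0 := fun h0 => hq.ne_zero (transcendental_iff.mp h.transcendental q h0)
    obtain ⟨hqO, hqO'⟩ := h.gauss q hq.1 hq.2
    have hgO : aeval x g ∈ O := aeval_mem_of_coeff_mem h.mem_iff h.gauss hg
    -- the quotient `t = g(x)/q(x)` lies in `R_b`
    have htK : aeval x g * (aeval x q)⁻¹ ∈ K⟮x⟯ :=
      mul_mem (aeval_mem_adjoin_simple x g) (inv_mem (aeval_mem_adjoin_simple x q))
    have htd : aeval x g * (aeval x q)⁻¹ ∈ H74.discRing A O x b := by
      refine ⟨O.mul_mem _ _ hgO hqO', ?_⟩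
      rintro P ⟨c, hc, hP⟩
      by_cases hg0 : aeval x g = 0
      · rw [hg0, zero_mul, Place.ord_zero]
      · rw [P.ord_mul hg0 (inv_ne_zero hqx), P.ord_inv, (ord_aeval_eq_zero x P c hP (hqc c hc)).2,
          neg_zero, add_zero]
        exact ord_aeval_nonneg x P (ord_nonneg_of_ord_sub_pos x P c hP) g
    set t : ↥OL := ⟨⟨aeval x g * (aeval x q)⁻¹, htK⟩, (h.mem_OL _).mpr htd.1⟩ with ht
    have hkey : ((d : K⟮x⟯) : F) - algebraMap K F (p.eval b * (q.eval b)⁻¹)
        = (x - algebraMap K F b) * (aeval x g * (aeval x q)⁻¹) := by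
      have h1 := congrArg (aeval x) hfg
      rw [map_sub, map_mul (aeval x) (C _) q, map_mul (aeval x) (X - C b) g, map_sub, aeval_X,
        aeval_C, aeval_C, ← hpq] at h1
      generalize algebraMap K F (p.eval b * (q.eval b)⁻¹) = α at h1 ⊢
      field_simp
      linear_combination h1
    have hda : d - a = xb * t := by
      apply Subtype.ext
      apply Subtype.ext
      change ((d : K⟮x⟯) : F) - ((a : K⟮x⟯) : F) = ((xb : K⟮x⟯) : F) * (aeval x g * (aeval x q)⁻¹)
      rw [ha, hxb]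
      exact hkey
    refine ⟨⟨red t, h.red_mem htd⟩, Subtype.ext ?_⟩
    change (z : κL) - (abar : κL) = (ϖ : κL) * red t
    rw [← hdz, habar, hϖ, ← map_sub, hda, map_mul]

end DiscResidue

section Landed

open Fermat.Agent.S18

variable {A : ValuationSubring K} {O : ValuationSubring F} {x : F} {b : K}

/-- The landed objects `H80.OL O x`, `IsLocalRing.residue`, `H5.Rbar A O x b` form a
`DiscResidue`. -/
theorem discResidue_Rbar (hmem : ∀ a : K, algebraMap K F a ∈ O ↔ a ∈ A)
    (hgauss : ∀ p : K[X], (∀ i, p.coeff i ∈ A) → (∃ i, p.coeff i ≠ 0 ∧ (p.coeff i)⁻¹ ∈ A) →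
      aeval x p ∈ O ∧ (aeval x p)⁻¹ ∈ O)
    (hb : b ∈ A)
    (hfib : ∀ c : K, c - b ∈ A.nonunits → ∃ P : Place K F, 0 < P.ord (x - algebraMap K F c)) :
    DiscResidue A O x b (H80.OL (K := K) O x) (IsLocalRing.residue ↥(H80.OL (K := K) O x))
      (H5.Rbar A O x b) :=
  ⟨hmem, hgauss, hb, hfib, fun _ => Iff.rfl,
    fun r => by
      rw [IsLocalRing.residue_eq_zero_iff]
      exact H80.mem_maximalIdeal_OL_iff O x r,
    fun _ => H5.mem_Rbar A O x b⟩

/-- The same from the abstract `Setup`. -/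
theorem discResidue_of_setup [IsAlgClosed K] [CharZero K] (hA : A ≠ ⊤)
    (hS : H74.Setup K A F O x) (hb : b ∈ A) :
    DiscResidue A O x b (H80.OL (K := K) O x) (IsLocalRing.residue ↥(H80.OL (K := K) O x))
      (H5.Rbar A O x b) := by
  have := hS.finite
  have hx : Transcendental K x := H22.transcendental_of_gauss hA hS.mem_iff hS.gauss
  exact discResidue_Rbar hS.mem_iff hS.gauss hb (fun c _ => H42.exists_over x hx c)

/-- **`H5.Rbar A O x b` is a discrete valuation ring** (for a `Setup`). -/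
theorem isDiscreteValuationRing_Rbar [IsAlgClosed K] [CharZero K] (hA : A ≠ ⊤)
    (hS : H74.Setup K A F O x) (hb : b ∈ A) : IsDiscreteValuationRing ↥(H5.Rbar A O x b) :=
  (discResidue_of_setup hA hS hb).isDiscreteValuationRing

/-- **The residue field of `O ∩ K(x)` is the fraction field of `H5.Rbar A O x b`.** -/
theorem isFractionRing_Rbar [IsAlgClosed K] [CharZero K] (hA : A ≠ ⊤)
    (hS : H74.Setup K A F O x) (hb : b ∈ A) :
    IsFractionRing ↥(H5.Rbar A O x b) (IsLocalRing.ResidueField ↥(H80.OL (K := K) O x)) :=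
  (discResidue_of_setup hA hS hb).isFractionRing IsLocalRing.residue_surjective

/-- **The uniformiser of `H5.Rbar A O x b`**: the reduction of `x - b`. -/
theorem exists_unif_Rbar [IsAlgClosed K] [CharZero K] (hA : A ≠ ⊤)
    (hS : H74.Setup K A F O x) (hb : b ∈ A) :
    ∃ (xb : ↥(H80.OL (K := K) O x)) (ϖ : ↥(H5.Rbar A O x b)),
      ((xb : K⟮x⟯) : F) = x - algebraMap K F b ∧
      (ϖ : IsLocalRing.ResidueField ↥(H80.OL (K := K) O x))
        = IsLocalRing.residue ↥(H80.OL (K := K) O x) xb ∧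
      Irreducible ϖ := by
  have h := discResidue_of_setup hA hS hb
  obtain ⟨xb, ϖ, hxb, hϖ⟩ := h.exists_unif
  exact ⟨xb, ϖ, hxb, hϖ, h.irreducible hxb hϖ⟩

end Landed

end Fermat.Agent.S18.H4
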