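/-
helper4 — generic valuation-ring lemma for Program J (S18), local prototype.

`K` algebraically closed, `A` a valuation subring, `f ∈ A[X]` with nonzero reduction.
Then the multiplicity of `b` as a root of the reduction of `f` equals the number of roots
of `f` in `K` (with multiplicity) lying in `A` and reducing to `b`
("zeros in a residue disc = order of the reduction at the centre").
-/
import Mathlib

set_option autoImplicit false

open Polynomial

namespace Fermat.Agent.S18.H4

variable {K : Type*} [Field K] (A : ValuationSubring K)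

/-- The predicate "`x` lies in `A` and reduces to `b`". -/
def InDisc (b : IsLocalRing.ResidueField A) (x : K) : Prop :=
  ∃ hx : x ∈ A, IsLocalRing.residue A ⟨x, hx⟩ = b

lemma inDisc_iff (b : IsLocalRing.ResidueField A) (x : K) :
    InDisc A b x ↔ ∃ hx : x ∈ A, IsLocalRing.residue A ⟨x, hx⟩ = b := Iff.rfl

lemma inDisc_coe (b : IsLocalRing.ResidueField A) (x : A) :
    InDisc A b (x : K) ↔ IsLocalRing.residue A x = b := by
  constructor
  · rintro ⟨hx, h⟩; exact h
  · intro h; exact ⟨x.2, h⟩

/-- If `a ∉ A` then `a⁻¹` lies in the maximal ideal of `A`. -/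
lemma inv_mem_maximalIdeal_of_not_mem {a : K} (ha : a ∉ A) :
    ∃ h : a⁻¹ ∈ A, (⟨a⁻¹, h⟩ : A) ∈ IsLocalRing.maximalIdeal A := by
  have h : a⁻¹ ∈ A := (A.mem_or_inv_mem a).resolve_left ha
  refine ⟨h, ?_⟩
  rw [IsLocalRing.mem_maximalIdeal, mem_nonunits_iff]
  intro hu
  apply ha
  obtain ⟨u, hu⟩ := hu
  have h1 : ((u⁻¹ : Aˣ) : A) * ⟨a⁻¹, h⟩ = 1 := by rw [← hu]; exact u.inv_mul
  have h2 : (((u⁻¹ : Aˣ) : A) : K) * a⁻¹ = 1 := by
    have := congrArg (fun x : A => (x : K)) h1
    simpa using this
  have ha0 : a ≠ 0 := by
    rintro rfl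
    exact ha A.zero_mem
  have h3 : (((u⁻¹ : Aˣ) : A) : K) = a := by
    field_simp at h2
    exact h2
  rw [← h3]
  exact ((u⁻¹ : Aˣ) : A).2

open Classical in
/-- Normal form of a split polynomial over a valuation ring: a product of linear factors over `K`
is a nonzero constant times a polynomial over `A` whose reduction is monic and has the expected
root multiplicities. -/
lemma exists_normal_form (s : Multiset K) :
    ∃ (c : K) (g : A[X]), c ≠ 0 ∧
      (s.map (fun a => X - C a)).prod = C c * g.map (algebraMap A K) ∧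
      (g.map (IsLocalRing.residue A)).Monic ∧
      (g.map (IsLocalRing.residue A)).natDegree = s.countP (· ∈ A) ∧
      ∀ b, (g.map (IsLocalRing.residue A)).rootMultiplicity b = s.countP (InDisc A b) := by
  induction s using Multiset.induction_on with
  | empty =>
    refine ⟨1, 1, one_ne_zero, by simp, by simp, by simp, fun b => ?_⟩
    simp
  | cons a s ih =>
    obtain ⟨c, g, hc, hprod, hmon, hdeg, hmult⟩ := ih
    by_cases ha : a ∈ A
    · refine ⟨c, (X - C ⟨a, ha⟩) * g, hc, ?_, ?_, ?_, fun b => ?_⟩
      · rw [Multiset.map_cons, Multiset.prod_cons, hprod, Polynomial.map_mul]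
        have : (X - C (⟨a, ha⟩ : A)).map (algebraMap A K) = X - C a := by
          simp [Polynomial.map_sub]
        rw [this]; ring
      · rw [Polynomial.map_mul]
        refine Monic.mul ?_ hmon
        simpa [Polynomial.map_sub] using monic_X_sub_C (IsLocalRing.residue A ⟨a, ha⟩)
      · have h1 : ((X - C (⟨a, ha⟩ : A)).map (IsLocalRing.residue A)).Monic := by
          simpa [Polynomial.map_sub] using monic_X_sub_C (IsLocalRing.residue A ⟨a, ha⟩)
        have h2 : ((X - C (⟨a, ha⟩ : A)).map (IsLocalRing.residue A)).natDegree = 1 := by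
          have : (X - C (⟨a, ha⟩ : A)).map (IsLocalRing.residue A)
              = X - C (IsLocalRing.residue A ⟨a, ha⟩) := by simp [Polynomial.map_sub]
          rw [this, natDegree_X_sub_C]
        rw [Polynomial.map_mul, h1.natDegree_mul hmon, h2, hdeg, Multiset.countP_cons, if_pos ha,
          add_comm]
      · rw [Polynomial.map_mul, rootMultiplicity_mul, hmult b, Multiset.countP_cons]
        · have : (X - C (⟨a, ha⟩ : A)).map (IsLocalRing.residue A)
              = X - C (IsLocalRing.residue A ⟨a, ha⟩) := by simp [Polynomial.map_sub]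
          rw [this, rootMultiplicity_X_sub_C, add_comm]
          congr 1
          by_cases hb : b = IsLocalRing.residue A ⟨a, ha⟩
          · rw [if_pos hb, if_pos ⟨ha, hb.symm⟩]
          · rw [if_neg hb, if_neg]
            rintro ⟨_, h⟩; exact hb h.symm
        · have h1 : ((X - C (⟨a, ha⟩ : A)).map (IsLocalRing.residue A)).Monic := by
            simpa [Polynomial.map_sub] using monic_X_sub_C (IsLocalRing.residue A ⟨a, ha⟩)
          exact (h1.mul hmon).ne_zero
    · obtain ⟨hinv, hmax⟩ := inv_mem_maximalIdeal_of_not_mem A ha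
      have ha0 : a ≠ 0 := by
        rintro rfl
        exact ha A.zero_mem
      have hred : (1 - C (⟨a⁻¹, hinv⟩ : A) * X).map (IsLocalRing.residue A) = 1 := by
        have h0 : IsLocalRing.residue A ⟨a⁻¹, hinv⟩ = 0 :=
          (IsLocalRing.residue_eq_zero_iff _).2 hmax
        simp [Polynomial.map_sub, h0]
      refine ⟨-a * c, (1 - C ⟨a⁻¹, hinv⟩ * X) * g, mul_ne_zero (neg_ne_zero.mpr ha0) hc, ?_, ?_,
        ?_, fun b => ?_⟩
      · rw [Multiset.map_cons, Multiset.prod_cons, hprod, Polynomial.map_mul]
        have : (1 - C (⟨a⁻¹, hinv⟩ : A) * X).map (algebraMap A K) = 1 - C a⁻¹ * X := by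
          simp [Polynomial.map_sub]
        rw [this, C_mul, C_neg]
        have h2 : C a * (1 - C a⁻¹ * X) = C a - (X : K[X]) := by
          rw [mul_sub, mul_one, ← mul_assoc, ← C_mul, mul_inv_cancel₀ ha0, C_1, one_mul]
        linear_combination (C c * g.map (algebraMap A K)) * h2
      · rw [Polynomial.map_mul]
        have : (1 - C (⟨a⁻¹, hinv⟩ : A) * X).map (IsLocalRing.residue A) = 1 := by
          have h0 : IsLocalRing.residue A ⟨a⁻¹, hinv⟩ = 0 :=
            (IsLocalRing.residue_eq_zero_iff _).2 hmax
          simp [Polynomial.map_sub, h0]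
        rw [this, one_mul]; exact hmon
      · rw [Polynomial.map_mul, hred, one_mul, hdeg, Multiset.countP_cons, if_neg ha, add_zero]
      · have : (1 - C (⟨a⁻¹, hinv⟩ : A) * X).map (IsLocalRing.residue A) = 1 := by
          have h0 : IsLocalRing.residue A ⟨a⁻¹, hinv⟩ = 0 :=
            (IsLocalRing.residue_eq_zero_iff _).2 hmax
          simp [Polynomial.map_sub, h0]
        rw [Polynomial.map_mul, this, one_mul, hmult b, Multiset.countP_cons, if_neg, add_zero]
        rintro ⟨h, _⟩; exact ha h

open Classical in
/-- Gauss normalisation with root bookkeeping: a polynomial over `A` with nonzero reduction is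
`c • g` with `c` a unit-residue constant and `g ∈ A[X]` whose reduction is monic, of degree the
number of integral roots, with root multiplicities given by the disc counts. -/
lemma exists_eq_C_mul [IsAlgClosed K] (f : A[X]) (hf : f.map (IsLocalRing.residue A) ≠ 0) :
    ∃ (c' : A) (g : A[X]), f = C c' * g ∧ IsLocalRing.residue A c' ≠ 0 ∧
      (g.map (IsLocalRing.residue A)).Monic ∧
      (g.map (IsLocalRing.residue A)).natDegree
        = (f.map (algebraMap A K)).roots.countP (· ∈ A) ∧
      ∀ b, (g.map (IsLocalRing.residue A)).rootMultiplicity b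
        = (f.map (algebraMap A K)).roots.countP (InDisc A b) := by
  set F := f.map (algebraMap A K) with hF
  have hinj : Function.Injective (algebraMap A K) := Subtype.coe_injective
  have hsplit : F.Splits := IsAlgClosed.splits F
  obtain ⟨c, g, hc, hprod, hmon, hdeg, hmult⟩ := exists_normal_form A F.roots
  have hFeq : F = C (F.leadingCoeff * c) * g.map (algebraMap A K) := by
    conv_lhs => rw [hsplit.eq_prod_roots, hprod]
    rw [C_mul]; ring
  -- a unit coefficient of `g`
  have hgne : g.map (IsLocalRing.residue A) ≠ 0 := hmon.ne_zero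
  obtain ⟨n, hn⟩ : ∃ n, (g.map (IsLocalRing.residue A)).coeff n ≠ 0 := by
    by_contra h
    exact hgne (Polynomial.ext fun n => by
      by_contra h'
      exact h ⟨n, by simpa using h'⟩)
  rw [coeff_map] at hn
  have hunit : IsUnit (g.coeff n) := by
    by_contra h
    exact hn ((IsLocalRing.residue_eq_zero_iff _).2 h)
  obtain ⟨u, hu⟩ := hunit
  -- the constant lies in `A`
  have hcoeff : ((f.coeff n : A) : K) = F.leadingCoeff * c * ((g.coeff n : A) : K) := by
    have := congrArg (fun p : K[X] => p.coeff n) hFeq
    simp only [hF, coeff_map, coeff_C_mul] at this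
    exact this
  have hcA : F.leadingCoeff * c = ((f.coeff n * ((u⁻¹ : Aˣ) : A) : A) : K) := by
    have h1 : ((g.coeff n : A) : K) * (((u⁻¹ : Aˣ) : A) : K) = 1 := by
      have : (g.coeff n) * ((u⁻¹ : Aˣ) : A) = 1 := by rw [← hu]; exact u.mul_inv
      have := congrArg (fun x : A => (x : K)) this
      simpa using this
    push_cast
    rw [hcoeff, mul_assoc, h1, mul_one]
  set c' : A := f.coeff n * ((u⁻¹ : Aˣ) : A) with hc'
  have hfeq : f = C c' * g := by
    apply Polynomial.map_injective (algebraMap A K) hinj
    rw [← hF, hFeq, hcA, Polynomial.map_mul, Polynomial.map_C]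
    rfl
  refine ⟨c', g, hfeq, ?_, hmon, hdeg, hmult⟩
  intro h
  apply hf
  rw [hfeq, Polynomial.map_mul, Polynomial.map_C, h, C_0, zero_mul]

open Classical in
/-- **Zeros in a residue disc.** For `f ∈ A[X]` with nonzero reduction over the valuation ring `A`
of an algebraically closed field `K`, the multiplicity of `b` as a root of the reduction equals the
number of roots of `f` in `K` (with multiplicity) that lie in `A` and reduce to `b`. -/
theorem rootMultiplicity_map_residue_eq_countP [IsAlgClosed K] (f : A[X])
    (hf : f.map (IsLocalRing.residue A) ≠ 0) (b : IsLocalRing.ResidueField A) :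
    (f.map (IsLocalRing.residue A)).rootMultiplicity b
      = (f.map (algebraMap A K)).roots.countP (InDisc A b) := by
  obtain ⟨c', g, hfeq, hc', hmon, -, hmult⟩ := exists_eq_C_mul A f hf
  have hfbar : f.map (IsLocalRing.residue A)
      = C (IsLocalRing.residue A c') * g.map (IsLocalRing.residue A) := by
    rw [hfeq, Polynomial.map_mul, Polynomial.map_C]
  rw [hfbar, rootMultiplicity_mul (mul_ne_zero (C_ne_zero.mpr hc') hmon.ne_zero),
    rootMultiplicity_C, zero_add, hmult b]

open Classical in
/-- The degree of the reduction is the number of integral roots (with multiplicity). -/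
theorem natDegree_map_residue_eq_countP [IsAlgClosed K] (f : A[X])
    (hf : f.map (IsLocalRing.residue A) ≠ 0) :
    (f.map (IsLocalRing.residue A)).natDegree
      = (f.map (algebraMap A K)).roots.countP (· ∈ A) := by
  obtain ⟨c', g, hfeq, hc', hmon, hdeg, -⟩ := exists_eq_C_mul A f hf
  have hfbar : f.map (IsLocalRing.residue A)
      = C (IsLocalRing.residue A c') * g.map (IsLocalRing.residue A) := by
    rw [hfeq, Polynomial.map_mul, Polynomial.map_C]
  rw [hfbar, natDegree_C_mul hc', hdeg]

/-- A root in `K` of `f.map`, lying in `A`, is a root of `f`. -/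
lemma isRoot_of_isRoot_map (f : A[X]) (x : A) (h : (f.map (algebraMap A K)).IsRoot (x : K)) :
    f.IsRoot x := by
  have hinj : Function.Injective (algebraMap A K) := Subtype.coe_injective
  apply hinj
  have : (f.map (algebraMap A K)).eval (algebraMap A K x) = algebraMap A K (f.eval x) := by
    rw [eval_map, eval₂_at_apply]
  rw [map_zero, ← this]
  exact h

/-- **Root lifting without Hensel.** A root of the (nonzero) reduction lifts to a root of `f`
in `A`. -/
theorem exists_isRoot_of_isRoot_map_residue [IsAlgClosed K] (f : A[X])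
    (hf : f.map (IsLocalRing.residue A) ≠ 0) (b : IsLocalRing.ResidueField A)
    (hb : (f.map (IsLocalRing.residue A)).IsRoot b) :
    ∃ x : A, f.IsRoot x ∧ IsLocalRing.residue A x = b := by
  classical
  have hpos : 0 < (f.map (IsLocalRing.residue A)).rootMultiplicity b :=
    (rootMultiplicity_pos hf).mpr hb
  rw [rootMultiplicity_map_residue_eq_countP A f hf b, Multiset.countP_pos] at hpos
  obtain ⟨a, ha, hxA, hres⟩ := hpos
  refine ⟨⟨a, hxA⟩, isRoot_of_isRoot_map A f ⟨a, hxA⟩ ?_, hres⟩
  exact (mem_roots'.mp ha).2

/-- **The Hensel-free root bijection.** A simple root of the reduction has exactly one lift to a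
root of `f` in `A`. -/
theorem existsUnique_isRoot_of_rootMultiplicity_eq_one [IsAlgClosed K] (f : A[X])
    (b : IsLocalRing.ResidueField A)
    (hb : (f.map (IsLocalRing.residue A)).rootMultiplicity b = 1) :
    ∃! x : A, f.IsRoot x ∧ IsLocalRing.residue A x = b := by
  classical
  have hf : f.map (IsLocalRing.residue A) ≠ 0 := by
    intro h
    rw [h, rootMultiplicity_zero] at hb
    exact zero_ne_one hb
  have hcount := rootMultiplicity_map_residue_eq_countP A f hf b
  rw [hb, Multiset.countP_eq_card_filter] at hcount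
  obtain ⟨z, hz⟩ := Multiset.card_eq_one.mp hcount.symm
  have hzmem : z ∈ Multiset.filter (InDisc A b) (f.map (algebraMap A K)).roots := by
    rw [hz]; exact Multiset.mem_singleton_self z
  obtain ⟨hzroot, hzA, hzres⟩ := Multiset.mem_filter.mp hzmem
  refine ⟨⟨z, hzA⟩, ⟨isRoot_of_isRoot_map A f ⟨z, hzA⟩ (mem_roots'.mp hzroot).2, hzres⟩, ?_⟩
  rintro y ⟨hyroot, hyres⟩
  have hfK : f.map (algebraMap A K) ≠ 0 := by
    intro h
    apply hf
    have : f = 0 := Polynomial.map_injective (algebraMap A K) Subtype.coe_injective (by simpa using h)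
    rw [this, Polynomial.map_zero]
  have hymem : (y : K) ∈ Multiset.filter (InDisc A b) (f.map (algebraMap A K)).roots := by
    refine Multiset.mem_filter.mpr ⟨(mem_roots hfK).mpr ?_, (inDisc_coe A b y).mpr hyres⟩
    have : (f.map (algebraMap A K)).eval (algebraMap A K y) = algebraMap A K (f.eval y) := by
      rw [eval_map, eval₂_at_apply]
    change (f.map (algebraMap A K)).eval (algebraMap A K y) = 0
    rw [this, hyroot, map_zero]
  rw [hz, Multiset.mem_singleton] at hymem
  exact Subtype.ext hymem

/-- Membership in a residue disc in terms of `A.nonunits` (the shape used by the S18 skeleton: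
`c - b ∈ A.nonunits`). -/
lemma inDisc_residue_iff_sub_mem_nonunits (b : A) (c : K) :
    InDisc A (IsLocalRing.residue A b) c ↔ c - (b : K) ∈ A.nonunits := by
  rw [ValuationSubring.mem_nonunits_iff_exists_mem_maximalIdeal]
  constructor
  · rintro ⟨hc, h⟩
    have hmem : c - (b : K) ∈ A := A.sub_mem hc b.2
    refine ⟨hmem, ?_⟩
    rw [← IsLocalRing.residue_eq_zero_iff]
    have : (⟨c - (b : K), hmem⟩ : A) = ⟨c, hc⟩ - b := rfl
    rw [this, map_sub, h, sub_self]
  · rintro ⟨hmem, h⟩
    have hc : c ∈ A := by
      have := A.add_mem _ _ hmem b.2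
      simpa using this
    refine ⟨hc, ?_⟩
    rw [← IsLocalRing.residue_eq_zero_iff] at h
    have : (⟨c - (b : K), hmem⟩ : A) = ⟨c, hc⟩ - b := rfl
    rw [this, map_sub, sub_eq_zero] at h
    exact h

open Classical in
/-- **Zeros in a residue disc, `K[X]`-form.**  `p ∈ K[X]` with coefficients in `A`, one of them a
unit of `A` (Gauss norm one), `b ∈ A`: the number of roots `c` of `p` (with multiplicity) with
`c - b ∈ 𝔪_A` is the multiplicity of the residue of `b` as a root of the reduction of `p`. -/
theorem countP_roots_sub_mem_nonunits [IsAlgClosed K] (p : K[X]) (hp : ∀ i, p.coeff i ∈ A)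
    (hunit : ∃ i, p.coeff i ≠ 0 ∧ (p.coeff i)⁻¹ ∈ A) (b : A) :
    ∃ f : A[X], f.map (algebraMap A K) = p ∧ f.map (IsLocalRing.residue A) ≠ 0 ∧
      p.roots.countP (fun c => c - (b : K) ∈ A.nonunits)
        = (f.map (IsLocalRing.residue A)).rootMultiplicity (IsLocalRing.residue A b) := by
  have hsub : (↑p.coeffs : Set K) ⊆ ↑A.toSubring := by
    intro y hy
    obtain ⟨n, -, rfl⟩ := Polynomial.mem_coeffs_iff.mp hy
    exact hp n
  have hmap : (p.toSubring A.toSubring hsub).map (algebraMap A K) = p :=
    Polynomial.map_toSubring p A.toSubring hsub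
  have hne : (p.toSubring A.toSubring hsub).map (IsLocalRing.residue A) ≠ 0 := by
    obtain ⟨i, hi0, hi⟩ := hunit
    intro h
    have h1 := congrArg (fun q => q.coeff i) h
    simp only [coeff_map, coeff_zero] at h1
    rw [IsLocalRing.residue_eq_zero_iff] at h1
    have h2 : (((p.toSubring A.toSubring hsub).coeff i : A) : K) = p.coeff i :=
      Polynomial.coeff_toSubring p A.toSubring hsub (n := i)
    -- a unit coefficient cannot lie in the maximal ideal
    refine ((IsLocalRing.mem_maximalIdeal _).mp h1) (isUnit_iff_exists_inv.mpr ⟨⟨(p.coeff i)⁻¹, hi⟩, ?_⟩)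
    apply Subtype.ext
    change (((p.toSubring A.toSubring hsub).coeff i : A) : K) * (p.coeff i)⁻¹ = 1
    rw [h2, mul_inv_cancel₀ hi0]
  refine ⟨p.toSubring A.toSubring hsub, hmap, hne, ?_⟩
  rw [rootMultiplicity_map_residue_eq_countP A _ hne, hmap]
  congr 1
  funext c
  exact propext (inDisc_residue_iff_sub_mem_nonunits A b c).symm

end Fermat.Agent.S18.H4
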