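/-
helper4 — generic idempotent lifting for Program J (S18), local prototype.

`A` a local ring, `B` a commutative `A`-algebra that is a finite `A`-module, `I = 𝔪_A B`.
* an idempotent of `B` lying in `I` is zero (Nakayama), hence idempotent lifts are unique and
  lifts of orthogonal idempotents are orthogonal;
* if `A` is a valuation subring of an algebraically closed field, every idempotent of `B ⧸ I`
  lifts to an idempotent of `B` (no completeness, no noetherianity).
-/
import Mathlib

set_option autoImplicit false

open Polynomial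

namespace Fermat.Agent.S18.H4

section Local

variable {R : Type*} [CommRing R]
variable {B : Type*} [CommRing B] [Algebra R B]

/-- Evaluating a polynomial at an element that is idempotent modulo an ideal. -/
lemma aeval_sub_mem_of_sq_sub_mem (I : Ideal B) {x : B} (hx : x * x - x ∈ I) (q : R[X]) :
    aeval x q - (algebraMap R B (q.eval 0) * (1 - x) + algebraMap R B (q.eval 1) * x) ∈ I := by
  have hpow : ∀ n : ℕ, x ^ (n + 1) - x ∈ I := by
    intro n
    induction n with
    | zero => simp
    | succ n ih =>
      have : x ^ (n + 1 + 1) - x = x * (x ^ (n + 1) - x) + (x * x - x) := by ring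
      rw [this]
      exact I.add_mem (I.mul_mem_left _ ih) hx
  induction q using Polynomial.induction_on' with
  | add p q hp hq =>
    have : aeval x (p + q) - (algebraMap R B ((p + q).eval 0) * (1 - x)
          + algebraMap R B ((p + q).eval 1) * x)
        = (aeval x p - (algebraMap R B (p.eval 0) * (1 - x) + algebraMap R B (p.eval 1) * x))
          + (aeval x q - (algebraMap R B (q.eval 0) * (1 - x) + algebraMap R B (q.eval 1) * x)) := by
      simp only [map_add, eval_add]; ring
    rw [this]
    exact I.add_mem hp hq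
  | monomial n a =>
    rcases n with _ | n
    · have : aeval x (monomial 0 a) - (algebraMap R B ((monomial 0 a).eval 0) * (1 - x)
          + algebraMap R B ((monomial 0 a).eval 1) * x) = 0 := by
        simp
        ring
      rw [this]; exact I.zero_mem
    · have : aeval x (monomial (n + 1) a) - (algebraMap R B ((monomial (n + 1) a).eval 0) * (1 - x)
          + algebraMap R B ((monomial (n + 1) a).eval 1) * x)
          = algebraMap R B a * (x ^ (n + 1) - x) := by
        simp [aeval_monomial]; ring
      rw [this]
      exact I.mul_mem_left _ (hpow n)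

variable [IsLocalRing R]

/-- The ideal `𝔪_R B` of a commutative algebra over a local ring. -/
abbrev maxIdealMap (R : Type*) [CommRing R] [IsLocalRing R] (B : Type*) [CommRing B]
    [Algebra R B] : Ideal B :=
  (IsLocalRing.maximalIdeal R).map (algebraMap R B)

/-- Nakayama: an ideal `J` of a finite algebra `B` over a local ring with `J + 𝔪B = B` is `B`. -/
lemma ideal_eq_top_of_sup_maxIdealMap_eq_top [Module.Finite R B] (J : Ideal B)
    (h : J ⊔ maxIdealMap R B = ⊤) : J = ⊤ := by
  have hfg : (⊤ : Submodule R B).FG := Module.finite_def.mp inferInstance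
  have hle : (⊤ : Submodule R B) ≤
      J.restrictScalars R ⊔ (IsLocalRing.maximalIdeal R) • (⊤ : Submodule R B) := by
    rw [Ideal.smul_top_eq_map]
    intro y _
    have hy : y ∈ J ⊔ maxIdealMap R B := by rw [h]; trivial
    obtain ⟨a, ha, b, hb, rfl⟩ := Submodule.mem_sup.mp hy
    exact Submodule.mem_sup.mpr ⟨a, ha, b, hb, rfl⟩
  have := Submodule.le_of_le_smul_of_le_jacobson_bot hfg
    (IsLocalRing.maximalIdeal_le_jacobson _) hle
  rw [Ideal.eq_top_iff_one]
  exact this (Submodule.mem_top : (1 : B) ∈ (⊤ : Submodule R B))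

/-- Nakayama: an idempotent of a finite algebra over a local ring that lies in `𝔪B` is zero. -/
lemma eq_zero_of_isIdempotentElem_of_mem_maxIdealMap [Module.Finite R B] {e : B}
    (he : IsIdempotentElem e) (hI : e ∈ maxIdealMap R B) : e = 0 := by
  -- the ideal `(1 - e)` together with `𝔪B` is everything
  have h1 : Ideal.span {1 - e} ⊔ maxIdealMap R B = ⊤ := by
    rw [Ideal.eq_top_iff_one]
    refine Submodule.mem_sup.mpr ⟨1 - e, Ideal.subset_span rfl, e, hI, by ring⟩
  have h2 := ideal_eq_top_of_sup_maxIdealMap_eq_top (R := R) _ h1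
  rw [Ideal.eq_top_iff_one, Ideal.mem_span_singleton'] at h2
  obtain ⟨a, ha⟩ := h2
  have he' : e * e = e := he
  calc e = e * 1 := by ring
    _ = e * (a * (1 - e)) := by rw [ha]
    _ = a * (e - e * e) := by ring
    _ = 0 := by rw [he']; ring

/-- Idempotent lifts modulo `𝔪B` are unique. -/
lemma isIdempotentElem_eq_of_sub_mem_maxIdealMap [Module.Finite R B] {e e' : B}
    (he : IsIdempotentElem e) (he' : IsIdempotentElem e') (h : e - e' ∈ maxIdealMap R B) :
    e = e' := by
  have hee : e * e = e := he
  have hee' : e' * e' = e' := he'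
  -- `e (1 - e')` and `e' (1 - e)` are idempotents in `𝔪B`
  have h1 : e * (1 - e') = 0 := by
    apply eq_zero_of_isIdempotentElem_of_mem_maxIdealMap (R := R)
    · change e * (1 - e') * (e * (1 - e')) = e * (1 - e')
      linear_combination (1 - e') ^ 2 * hee + e * hee'
    · have : e * (1 - e') = (e - e') * (1 - e') + (e' - e' * e') := by ring
      rw [this, hee', sub_self, add_zero]
      exact Ideal.mul_mem_right _ _ h
  have h2 : e' * (1 - e) = 0 := by
    apply eq_zero_of_isIdempotentElem_of_mem_maxIdealMap (R := R)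
    · change e' * (1 - e) * (e' * (1 - e)) = e' * (1 - e)
      linear_combination (1 - e) ^ 2 * hee' + e' * hee
    · have : e' * (1 - e) = -((e - e') * (1 - e)) + (e - e * e) := by ring
      rw [this, hee, sub_self, add_zero]
      exact Ideal.neg_mem_iff _ |>.mpr (Ideal.mul_mem_right _ _ h)
  linear_combination h1 - h2

/-- Lifts of orthogonal idempotents are orthogonal. -/
lemma mul_eq_zero_of_isIdempotentElem_of_mul_mem_maxIdealMap [Module.Finite R B] {e e' : B}
    (he : IsIdempotentElem e) (he' : IsIdempotentElem e') (h : e * e' ∈ maxIdealMap R B) :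
    e * e' = 0 :=
  eq_zero_of_isIdempotentElem_of_mem_maxIdealMap (R := R) (he.mul he') h

/-- Idempotent lifting from a coprime-type factorisation of an annihilating polynomial. -/
lemma exists_isIdempotentElem_of_factorisation [Module.Finite R B] {x : B}
    (hx : x * x - x ∈ maxIdealMap R B) (f₀ f₁ : R[X]) (hann : aeval x (f₀ * f₁) = 0)
    (h00 : f₀.eval 0 = 0) (h11 : f₁.eval 1 = 0) (h01 : IsUnit (f₀.eval 1))
    (h10 : IsUnit (f₁.eval 0)) :
    ∃ e : B, IsIdempotentElem e ∧ e - x ∈ maxIdealMap R B := by
  set I := maxIdealMap R B with hI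
  set a := aeval x f₀ with ha
  set c := aeval x f₁ with hc
  have hac : a * c = 0 := by rw [ha, hc, ← map_mul, hann]
  obtain ⟨p, hp⟩ := h01
  obtain ⟨r, hr⟩ := h10
  -- congruences for `a` and `c`
  have ha' : a - algebraMap R B p * x ∈ I := by
    have := aeval_sub_mem_of_sq_sub_mem (R := R) I hx f₀
    rw [h00, ← hp] at this
    simpa using this
  have hc' : c - algebraMap R B r * (1 - x) ∈ I := by
    have := aeval_sub_mem_of_sq_sub_mem (R := R) I hx f₁
    rw [h11, ← hr] at this
    simpa using this
  -- `a` and `c` generate the unit ideal modulo `I`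
  have htop : Ideal.span {a, c} ⊔ I = ⊤ := by
    rw [Ideal.eq_top_iff_one]
    have hpu : algebraMap R B (↑p⁻¹ : R) * algebraMap R B (p : R) = 1 := by
      rw [← map_mul, Units.inv_mul, map_one]
    have hru : algebraMap R B (↑r⁻¹ : R) * algebraMap R B (r : R) = 1 := by
      rw [← map_mul, Units.inv_mul, map_one]
    refine Submodule.mem_sup.mpr ⟨algebraMap R B (↑p⁻¹ : R) * a + algebraMap R B (↑r⁻¹ : R) * c, ?_,
      -(algebraMap R B (↑p⁻¹ : R) * (a - algebraMap R B p * x))
        - algebraMap R B (↑r⁻¹ : R) * (c - algebraMap R B r * (1 - x)), ?_, ?_⟩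
    · exact Ideal.add_mem _ (Ideal.mul_mem_left _ _ (Ideal.subset_span (by simp)))
        (Ideal.mul_mem_left _ _ (Ideal.subset_span (by simp)))
    · exact I.sub_mem (I.neg_mem (I.mul_mem_left _ ha')) (I.mul_mem_left _ hc')
    · linear_combination x * hpu + (1 - x) * hru
  have hspan := ideal_eq_top_of_sup_maxIdealMap_eq_top (R := R) _ htop
  rw [Ideal.eq_top_iff_one, Ideal.mem_span_pair] at hspan
  obtain ⟨u, v, huv⟩ := hspan
  refine ⟨u * a, ?_, ?_⟩
  · change u * a * (u * a) = u * a
    linear_combination (u * a) * huv - u * v * hac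
  · -- `x = x (u a + v c)`, `x c ∈ I`, `a x ≡ a`
    have hxc : x * c ∈ I := by
      have : x * c = x * (c - algebraMap R B r * (1 - x)) - algebraMap R B r * (x * x - x) := by
        ring
      rw [this]
      exact I.sub_mem (I.mul_mem_left _ hc') (I.mul_mem_left _ hx)
    have hax : a * x - a ∈ I := by
      have : a * x - a = (a - algebraMap R B p * x) * (x - 1) + algebraMap R B p * (x * x - x) := by
        ring
      rw [this]
      exact I.add_mem (I.mul_mem_right _ ha') (I.mul_mem_left _ hx)
    have : u * a - x = -(u * (a * x - a)) - v * (x * c) := by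
      linear_combination x * huv
    rw [this]
    exact I.sub_mem (I.neg_mem (I.mul_mem_left _ hax)) (I.mul_mem_left _ hxc)

end Local

section AlgClosed

variable {K : Type*} [Field K] [IsAlgClosed K] (A : ValuationSubring K)

/-- A monic polynomial over the valuation ring of an algebraically closed field is a product of
linear factors over that ring. -/
lemma exists_multiset_eq_prod_of_monic {χ : A[X]} (hχ : χ.Monic) :
    ∃ t : Multiset A, χ = (t.map (fun a => X - C a)).prod := by
  have hinj : Function.Injective (algebraMap A K) := Subtype.coe_injective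
  set F := χ.map (algebraMap A K) with hF
  have hFm : F.Monic := hχ.map _
  have hmem : ∀ a ∈ F.roots, a ∈ A := by
    intro a ha
    have hroot : F.IsRoot a := (mem_roots hFm.ne_zero).mp ha
    have hint : IsIntegral A a := by
      refine ⟨χ, hχ, ?_⟩
      rw [eval₂_eq_eval_map]
      exact hroot
    obtain ⟨y, hy⟩ := IsIntegrallyClosed.isIntegral_iff.mp hint
    rw [← hy]; exact y.2
  refine ⟨F.roots.pmap (fun a h => (⟨a, h⟩ : A)) hmem, ?_⟩
  apply Polynomial.map_injective (algebraMap A K) hinj
  rw [← hF, Polynomial.map_multiset_prod, Multiset.map_map]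
  have h1 : (Multiset.map (Polynomial.map (algebraMap A K) ∘ fun a : A => X - C a)
      (F.roots.pmap (fun a h => (⟨a, h⟩ : A)) hmem))
      = F.roots.map (fun a => X - C a) := by
    rw [Multiset.map_pmap]
    have : (fun (a : K) (h : a ∈ A) =>
        (Polynomial.map (algebraMap A K) ∘ fun a : A => X - C a) ⟨a, h⟩)
        = fun (a : K) (_ : a ∈ A) => (X - C a : K[X]) := by
      funext a h
      simp [Polynomial.map_sub]
    rw [this, Multiset.pmap_eq_map]
  rw [h1]
  exact (IsAlgClosed.splits F).eq_prod_roots_of_monic hFm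

open Classical in
/-- **Idempotent lifting** for a finite commutative algebra over the valuation ring of an
algebraically closed field (no completeness or noetherian hypothesis). -/
theorem exists_isIdempotentElem_sub_mem {B : Type*} [CommRing B] [Algebra A B]
    [Module.Finite A B] {x : B} (hx : x * x - x ∈ maxIdealMap A B) :
    ∃ e : B, IsIdempotentElem e ∧ e - x ∈ maxIdealMap A B := by
  obtain ⟨χ, hχ, hχx⟩ := IsIntegral.of_finite A x
  obtain ⟨t, ht⟩ := exists_multiset_eq_prod_of_monic A hχ
  set res := IsLocalRing.residue A with hres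
  set t₁ := t.filter (fun a => res a = 1) with ht₁
  set t₀ := t.filter (fun a => ¬ res a = 1) with ht₀
  set f₁ : A[X] := (X - C 1) * (t₁.map (fun a => X - C a)).prod with hf₁
  set f₀ : A[X] := X * (t₀.map (fun a => X - C a)).prod with hf₀
  have hprod : f₀ * f₁ = X * (X - C 1) * χ := by
    have : χ = (t₁.map (fun a => X - C a)).prod * (t₀.map (fun a => X - C a)).prod := by
      rw [← Multiset.prod_add, ← Multiset.map_add, ht₁, ht₀, Multiset.filter_add_not]
      exact ht
    rw [hf₀, hf₁]
    conv_rhs => rw [this]
    ring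
  refine exists_isIdempotentElem_of_factorisation (R := A) hx f₀ f₁ ?_ ?_ ?_ ?_ ?_
  · rw [hprod, map_mul, aeval_def x χ, hχx, mul_zero]
  · simp [hf₀]
  · simp [hf₁]
  · -- `f₀(1) = ∏ (1 - a)` over roots not reducing to `1`
    have : f₀.eval 1 = (t₀.map (fun a => 1 - a)).prod := by
      simp only [hf₀, eval_mul, eval_X, one_mul, eval_multiset_prod, Multiset.map_map]
      congr 1
      refine Multiset.map_congr rfl fun a _ => ?_
      simp
    rw [this]
    refine Multiset.prod_induction IsUnit _ (fun _ _ => IsUnit.mul) isUnit_one ?_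
    intro y hy
    obtain ⟨a, ha, rfl⟩ := Multiset.mem_map.mp hy
    rw [← IsLocalRing.residue_ne_zero_iff_isUnit, map_sub, map_one]
    have h1 : ¬ res a = 1 := (Multiset.mem_filter.mp ha).2
    intro h0
    exact h1 (sub_eq_zero.mp h0).symm
  · have : f₁.eval 0 = (0 - 1) * (t₁.map (fun a => 0 - a)).prod := by
      simp only [hf₁, eval_mul, eval_sub, eval_X, eval_C, eval_multiset_prod, Multiset.map_map]
      congr 2
      refine Multiset.map_congr rfl fun a _ => ?_
      simp
    rw [this]
    refine IsUnit.mul (by simp) ?_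
    refine Multiset.prod_induction IsUnit _ (fun _ _ => IsUnit.mul) isUnit_one ?_
    intro y hy
    obtain ⟨a, ha, rfl⟩ := Multiset.mem_map.mp hy
    rw [← IsLocalRing.residue_ne_zero_iff_isUnit, map_sub, map_zero, zero_sub, neg_ne_zero]
    have h1 : res a = 1 := (Multiset.mem_filter.mp ha).2
    rw [← hres, h1]
    exact one_ne_zero

/-- Idempotents of `B ⧸ 𝔪B` lift to idempotents of `B`. -/
theorem exists_isIdempotentElem_mk_eq {B : Type*} [CommRing B] [Algebra A B]
    [Module.Finite A B] {e : B ⧸ maxIdealMap A B} (he : IsIdempotentElem e) :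
    ∃ E : B, IsIdempotentElem E ∧ Ideal.Quotient.mk (maxIdealMap A B) E = e := by
  obtain ⟨x, rfl⟩ := Ideal.Quotient.mk_surjective e
  have hx : x * x - x ∈ maxIdealMap A B := by
    rw [← Ideal.Quotient.eq_zero_iff_mem, map_sub, map_mul, sub_eq_zero]
    exact he
  obtain ⟨E, hE, hEx⟩ := exists_isIdempotentElem_sub_mem A hx
  exact ⟨E, hE, Ideal.Quotient.eq.mpr hEx⟩

/-- Orthogonal idempotents of `B ⧸ 𝔪B` lift to orthogonal idempotents of `B`. -/
theorem exists_orthogonalIdempotents_lift {B : Type*} [CommRing B] [Algebra A B]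
    [Module.Finite A B] {ι : Type*} {e : ι → B ⧸ maxIdealMap A B} (he : OrthogonalIdempotents e) :
    ∃ E : ι → B, OrthogonalIdempotents E ∧ ∀ i, Ideal.Quotient.mk (maxIdealMap A B) (E i) = e i := by
  choose E hE hEe using fun i => exists_isIdempotentElem_mk_eq A (he.idem i)
  refine ⟨E, ⟨hE, fun i j hij => ?_⟩, hEe⟩
  apply mul_eq_zero_of_isIdempotentElem_of_mul_mem_maxIdealMap (R := A) (hE i) (hE j)
  rw [← Ideal.Quotient.eq_zero_iff_mem, map_mul, hEe, hEe]
  exact he.ortho hij

/-- Complete families of orthogonal idempotents of `B ⧸ 𝔪B` lift to complete families of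
orthogonal idempotents of `B`. -/
theorem exists_completeOrthogonalIdempotents_lift {B : Type*} [CommRing B] [Algebra A B]
    [Module.Finite A B] {ι : Type*} [Fintype ι] {e : ι → B ⧸ maxIdealMap A B}
    (he : CompleteOrthogonalIdempotents e) :
    ∃ E : ι → B, CompleteOrthogonalIdempotents E ∧
      ∀ i, Ideal.Quotient.mk (maxIdealMap A B) (E i) = e i := by
  obtain ⟨E, hE, hEe⟩ := exists_orthogonalIdempotents_lift A he.toOrthogonalIdempotents
  refine ⟨E, ⟨hE, ?_⟩, hEe⟩
  apply isIdempotentElem_eq_of_sub_mem_maxIdealMap (R := A) hE.isIdempotentElem_sum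
    IsIdempotentElem.one
  rw [← Ideal.Quotient.eq_zero_iff_mem, map_sub, map_sum, map_one, sub_eq_zero]
  simp only [hEe]
  exact he.complete

end AlgClosed

end Fermat.Agent.S18.H4
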